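import Fermat.Agent.AV.Jac.Bridge.Construct

/-!
Direct images between two schemes covered by two charts, and the universal property of pullback.
-/

set_option autoImplicit false
set_option backward.isDefEq.respectTransparency false

universe u

open CategoryTheory CategoryTheory.Limits AlgebraicGeometry TopologicalSpace Opposite
open scoped TensorProduct

namespace FermatLib.AV.SheafBridge

section Square

variable {X X' : Scheme.{u}} {h : X' ⟶ X} {A A' B B' : CommRingCat.{u}}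
  (p : Spec A ⟶ X) [IsOpenImmersion p] (p' : Spec A' ⟶ X') [IsOpenImmersion p'] (a : A ⟶ A')
  (sq : Spec.map a ≫ p = p' ≫ h)

include sq in
lemma image_top_le_preimage : p' ''ᵁ ⊤ ≤ h ⁻¹ᵁ (p ''ᵁ ⊤) := by
  rintro x ⟨y, -, rfl⟩
  exact ⟨Spec.map a y, trivial, congrArg (fun f : Spec A' ⟶ X => f y) sq⟩

lemma coordMap_appLE :
    coordMap p ≫ h.appLE (p ''ᵁ ⊤) (p' ''ᵁ ⊤) (image_top_le_preimage p p' a sq) =
      a ≫ coordMap p' := by
  have hn := Scheme.ΓSpecIso_inv_naturality a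
  rw [coordMap, coordMap, reassoc_of% hn]
  simp only [Category.assoc]
  congr 1
  rw [← cancel_mono (p'.appIso ⊤).hom]
  simp only [Category.assoc, Iso.inv_hom_id, Category.comp_id]
  have he : (⊤ : (Spec A').Opens) ≤ (p' ≫ h) ⁻¹ᵁ (p ''ᵁ ⊤) := fun y _ =>
    image_top_le_preimage p p' a sq ⟨y, trivial, rfl⟩
  have key : h.appLE (p ''ᵁ ⊤) (p' ''ᵁ ⊤) (image_top_le_preimage p p' a sq) ≫
      (p'.appIso ⊤).hom = (p' ≫ h).appLE (p ''ᵁ ⊤) ⊤ he := by
    rw [Scheme.Hom.appIso_hom', Scheme.Hom.appLE_comp_appLE]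
  rw [key]
  have congr_sq : ∀ (f g : Spec A' ⟶ X) (_ : f = g) (e₁) (e₂),
      f.appLE (p ''ᵁ ⊤) ⊤ e₁ = g.appLE (p ''ᵁ ⊤) ⊤ e₂ := by
    rintro f _ rfl _ _; rfl
  rw [congr_sq _ _ sq.symm he (fun y _ => ⟨Spec.map a y, trivial, rfl⟩),
    ← Scheme.Hom.appLE_comp_appLE _ _ (p ''ᵁ ⊤) ⊤ ⊤ (by simp) (by simp),
    Scheme.Hom.appIso_inv_appLE_assoc]
  all_goals simp [Scheme.Hom.appLE]

/-- From sections of a direct image over a chart to sections over the chart upstairs. -/
noncomputable def pushChart (G : X'.Modules) :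
    chartSec p ((Scheme.Modules.pushforward h).obj G) →ₛₗ[a.hom] chartSec p' G where
  toFun s := (G.restrictAppIso p' ⊤).inv (rs G (image_top_le_preimage p p' a sq)
    (show Γ(G, h ⁻¹ᵁ (p ''ᵁ ⊤)) from
      (((Scheme.Modules.pushforward h).obj G).restrictAppIso p ⊤).hom s))
  map_add' s t := by
    simp only [map_add]

  map_smul' r s := by
    apply (ConcreteCategory.bijective_of_isIso (G.restrictAppIso p' ⊤).hom).1
    rw [chartSec_smul, chartSec_smul, Iso.inv_hom_id_apply, Iso.inv_hom_id_apply]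
    refine (rs_smul (image_top_le_preimage p p' a sq) (h.app _ (coordMap p r)) _).trans ?_
    congr 1
    exact CategoryTheory.congr_fun (coordMap_appLE p p' a sq) r

lemma pushChart_apply (G : X'.Modules) (s : chartSec p ((Scheme.Modules.pushforward h).obj G)) :
    (G.restrictAppIso p' ⊤).hom (pushChart p p' a sq G s) =
      rs G (image_top_le_preimage p p' a sq) (show Γ(G, h ⁻¹ᵁ (p ''ᵁ ⊤)) from
        (((Scheme.Modules.pushforward h).obj G).restrictAppIso p ⊤).hom s) := by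
  simp [pushChart]

theorem bijective_pushChart (pre : h ⁻¹ᵁ p.opensRange ≤ p'.opensRange) (G : X'.Modules) :
    Function.Bijective (pushChart p p' a sq G) := by
  have hle : h ⁻¹ᵁ (p ''ᵁ ⊤) ≤ p' ''ᵁ ⊤ := by
    rwa [Scheme.Hom.image_top_eq_opensRange, Scheme.Hom.image_top_eq_opensRange]
  have hb : Function.Bijective (rs G (image_top_le_preimage p p' a sq)) := by
    refine ⟨fun s t hst => ?_, fun s => ⟨rs G hle s, ?_⟩⟩
    · simpa using congrArg (rs G hle) hst
    · simp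
  exact (ConcreteCategory.bijective_of_isIso (G.restrictAppIso p' ⊤).inv).comp
    (hb.comp (ConcreteCategory.bijective_of_isIso
      (((Scheme.Modules.pushforward h).obj G).restrictAppIso p ⊤).hom))

lemma pushChart_chartApp {G G' : X'.Modules} (θ : G ⟶ G')
    (s : chartSec p ((Scheme.Modules.pushforward h).obj G)) :
    pushChart p p' a sq G' (chartApp p ((Scheme.Modules.pushforward h).map θ) s) =
      chartApp p' θ (pushChart p p' a sq G s) := by
  apply (ConcreteCategory.bijective_of_isIso (G'.restrictAppIso p' ⊤).hom).1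
  rw [pushChart_apply, chartApp_apply, chartApp_apply, pushChart_apply, hom_app_rs]
  rfl

variable (q : Spec B ⟶ X) [IsOpenImmersion q] (q' : Spec B' ⟶ X') [IsOpenImmersion q']
  (b : B ⟶ B') (sqq : Spec.map b ≫ q = q' ≫ h) (j : A ⟶ B) (hq : Spec.map j ≫ p = q)
  (j' : A' ⟶ B') (hq' : Spec.map j' ≫ p' = q')

lemma pushChart_chartRes (G : X'.Modules)
    (s : chartSec p ((Scheme.Modules.pushforward h).obj G)) :
    pushChart q q' b sqq G (chartRes p q j hq _ s) =
      chartRes p' q' j' hq' G (pushChart p p' a sq G s) := by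
  apply (ConcreteCategory.bijective_of_isIso (G.restrictAppIso q' ⊤).hom).1
  rw [pushChart_apply, chartRes_apply, chartRes_apply, pushChart_apply, rs_rs]
  exact rs_rs (h.preimage_mono (image_top_le p q j hq)) (image_top_le_preimage q q' b sqq) _

/-- A semilinear map into the sections upstairs lifts to the direct image. -/
theorem exists_pushLift (pre : h ⁻¹ᵁ p.opensRange ≤ p'.opensRange) {G : X'.Modules} {M : Type u}
    [AddCommGroup M] [Module A M] (g : M →ₛₗ[a.hom] chartSec p' G) :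
    ∃ f : M →ₗ[A] chartSec p ((Scheme.Modules.pushforward h).obj G),
      ∀ m, pushChart p p' a sq G (f m) = g m := by
  have hb := bijective_pushChart p p' a sq pre G
  choose f hf using fun m => hb.2 (g m)
  exact ⟨{ toFun := f
           map_add' := fun m n => hb.1 (by rw [map_add, hf, hf, hf, map_add])
           map_smul' := fun r m => hb.1 (by
            rw [RingHom.id_apply, map_smulₛₗ, hf, hf, map_smulₛₗ]) }, hf⟩

end Square

/-- A semilinear map of invertible modules with spanning image is universal. -/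
theorem exists_extend {A B : CommRingCat.{u}} (a : A ⟶ B) {L L' N : Type u} [AddCommGroup L]
    [Module A L] [Module.Invertible A L] [AddCommGroup L'] [Module B L'] [Module.Invertible B L']
    [AddCommGroup N] [Module B N] (g : L →ₛₗ[a.hom] L')
    (hg : Submodule.span B (Set.range g) = ⊤) (v : L →ₛₗ[a.hom] N) :
    ∃ w : L' →ₗ[B] N, ∀ t, w (g t) = v t := by
  algebraize [a.hom]
  let := Module.compHom L' a.hom
  let := Module.compHom N a.hom
  have : IsScalarTower A B L' := IsScalarTower.of_compHom _ _ _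
  have : IsScalarTower A B N := IsScalarTower.of_compHom _ _ _
  let gA : L →ₗ[A] L' :=
    { toFun := g, map_add' := map_add g, map_smul' := fun r t => g.map_smulₛₗ r t }
  let vA : L →ₗ[A] N :=
    { toFun := v, map_add' := map_add v, map_smul' := fun r t => v.map_smulₛₗ r t }
  have hs : Function.Surjective (gA.liftBaseChange B) := by
    rw [← LinearMap.range_eq_top, eq_top_iff, ← hg, Submodule.span_le]
    rintro _ ⟨t, rfl⟩
    exact ⟨1 ⊗ₜ t, by simp [gA]⟩
  let e := LinearEquiv.ofBijective (gA.liftBaseChange B)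
    (Module.Invertible.bijective_of_surjective hs)
  refine ⟨(vA.liftBaseChange B).comp e.symm.toLinearMap, fun t => ?_⟩
  have he : e.symm (g t) = 1 ⊗ₜ[A] t :=
    e.symm_apply_eq.2 (by simp [e, gA])
  simp [he, vA]

/-- A morphism of schemes compatible with two-chart covers. -/
structure CoverMap {X X' : Scheme.{u}} (h : X' ⟶ X) (T : TwoCover X) (T' : TwoCover X') :
    Type u where
  a0 : T.A0 ⟶ T'.A0
  a1 : T.A1 ⟶ T'.A1
  a01 : T.A01 ⟶ T'.A01
  sq0 : Spec.map a0 ≫ T.p0 = T'.p0 ≫ h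
  sq1 : Spec.map a1 ≫ T.p1 = T'.p1 ≫ h
  sqq : Spec.map a01 ≫ T.q = T'.q ≫ h
  pre0 : h ⁻¹ᵁ T.p0.opensRange ≤ T'.p0.opensRange
  pre1 : h ⁻¹ᵁ T.p1.opensRange ≤ T'.p1.opensRange

namespace CoverMap

variable {X X' : Scheme.{u}} {h : X' ⟶ X} {T : TwoCover X} {T' : TwoCover X'}
  (Φ : CoverMap h T T')

include Φ in
lemma preq : h ⁻¹ᵁ T.q.opensRange ≤ T'.q.opensRange := by
  refine le_trans (le_inf ?_ ?_) T'.inter
  · refine le_trans (h.preimage_mono ?_) Φ.pre0
    simpa [Scheme.Hom.image_top_eq_opensRange] using image_top_le T.p0 T.q T.j0 T.hq0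
  · refine le_trans (h.preimage_mono ?_) Φ.pre1
    simpa [Scheme.Hom.image_top_eq_opensRange] using image_top_le T.p1 T.q T.j1 T.hq1

/-- Semilinear data with spanning images identify the pullback. -/
theorem nonempty_pullback_iso {F : X.Modules} [T.IsQC F] {F' : X'.Modules} [T'.IsQC F']
    [Module.Invertible T.A0 (chartSec T.p0 F)] [Module.Invertible T'.A0 (chartSec T'.p0 F')]
    [Module.Invertible T.A1 (chartSec T.p1 F)] [Module.Invertible T'.A1 (chartSec T'.p1 F')]
    (g0 : chartSec T.p0 F →ₛₗ[Φ.a0.hom] chartSec T'.p0 F')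
    (g1 : chartSec T.p1 F →ₛₗ[Φ.a1.hom] chartSec T'.p1 F')
    (g01 : chartSec T.q F →ₛₗ[Φ.a01.hom] chartSec T'.q F')
    (c0 : ∀ t, g01 (T.res0 F t) = T'.res0 F' (g0 t))
    (c1 : ∀ t, g01 (T.res1 F t) = T'.res1 F' (g1 t))
    (s0 : Submodule.span T'.A0 (Set.range g0) = ⊤)
    (s1 : Submodule.span T'.A1 (Set.range g1) = ⊤) :
    Nonempty ((Scheme.Modules.pullback h).obj F ≅ F') := by
  let adj := Scheme.Modules.pullbackPushforwardAdjunction h
  obtain ⟨f0, hf0⟩ := exists_pushLift T.p0 T'.p0 Φ.a0 Φ.sq0 Φ.pre0 g0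
  obtain ⟨f1, hf1⟩ := exists_pushLift T.p1 T'.p1 Φ.a1 Φ.sq1 Φ.pre1 g1
  obtain ⟨f01, hf01⟩ := exists_pushLift T.q T'.q Φ.a01 Φ.sqq Φ.preq g01
  obtain ⟨ψ, p0, p1, -⟩ := T.exists_hom f0 f1 f01
    (fun t => (bijective_pushChart T.q T'.q Φ.a01 Φ.sqq Φ.preq F').1 (by
      rw [pushChart_chartRes T.p0 T'.p0 Φ.a0 Φ.sq0 T.q T'.q Φ.a01 Φ.sqq T.j0 T.hq0 T'.j0 T'.hq0,
        hf0, hf01, c0]))
    (fun t => (bijective_pushChart T.q T'.q Φ.a01 Φ.sqq Φ.preq F').1 (by
      rw [pushChart_chartRes T.p1 T'.p1 Φ.a1 Φ.sq1 T.q T'.q Φ.a01 Φ.sqq T.j1 T.hq1 T'.j1 T'.hq1,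
        hf1, hf01, c1]))
  let β := (adj.homEquiv F F').symm ψ
  have hψ : adj.unit.app F ≫ (Scheme.Modules.pushforward h).map β = ψ := by
    exact (adj.homEquiv_unit F F' β).symm.trans ((adj.homEquiv F F').apply_symm_apply ψ)
  let H := (Scheme.Modules.pullback h).obj F
  let u0 : chartSec T.p0 F →ₛₗ[Φ.a0.hom] chartSec T'.p0 H :=
    (pushChart T.p0 T'.p0 Φ.a0 Φ.sq0 H).comp (chartApp T.p0 (adj.unit.app F))
  let u1 : chartSec T.p1 F →ₛₗ[Φ.a1.hom] chartSec T'.p1 H :=
    (pushChart T.p1 T'.p1 Φ.a1 Φ.sq1 H).comp (chartApp T.p1 (adj.unit.app F))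
  let u01 : chartSec T.q F →ₛₗ[Φ.a01.hom] chartSec T'.q H :=
    (pushChart T.q T'.q Φ.a01 Φ.sqq H).comp (chartApp T.q (adj.unit.app F))
  have r0 : ∀ t, u01 (T.res0 F t) = T'.res0 H (u0 t) := fun t => by
    simp only [u01, u0, LinearMap.comp_apply]
    rw [← chartRes_chartApp, pushChart_chartRes T.p0 T'.p0 Φ.a0 Φ.sq0 T.q T'.q Φ.a01 Φ.sqq T.j0
      T.hq0 T'.j0 T'.hq0]
  have r1 : ∀ t, u01 (T.res1 F t) = T'.res1 H (u1 t) := fun t => by
    simp only [u01, u1, LinearMap.comp_apply]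
    rw [← chartRes_chartApp, pushChart_chartRes T.p1 T'.p1 Φ.a1 Φ.sq1 T.q T'.q Φ.a01 Φ.sqq T.j1
      T.hq1 T'.j1 T'.hq1]
  obtain ⟨w0, hw0⟩ := exists_extend Φ.a0 g0 s0 u0
  obtain ⟨w1, hw1⟩ := exists_extend Φ.a1 g1 s1 u1
  have := T'.isIso0 (F := F')
  obtain ⟨w01, hw01⟩ := (isLocMap_chartRes T'.p0 T'.q T'.j0 T'.hq0 T'.x0 T'.loc0 F').exists_lift
    T'.loc0 ((T'.res0 H).comp w0)
  have hg : ∀ s, w01 (g01 s) = u01 s := by
    intro s
    obtain ⟨n, t, ht⟩ :=
      (isLocalizedModule_chartRes T.p0 T.q T.j0 T.hq0 T.x0 T.loc0 (F := F)).1 s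
    have hu : IsUnit (Φ.a01 (T.j0 T.x0 ^ n)) := by
      let := T.j0.hom.toAlgebra
      have := T.loc0
      exact ((IsLocalization.Away.algebraMap_isUnit (S := T.A01) T.x0).pow n).map Φ.a01.hom
    apply hu.smul_left_cancel.1
    rw [← map_smul w01, ← map_smulₛₗ g01, ← map_smulₛₗ u01, ← ht, c0, hw01, r0,
      LinearMap.comp_apply, hw0]
  obtain ⟨θ, t0, t1, -⟩ := T'.exists_hom w0 w1 w01 (fun s => (hw01 s).symm) (by
    have : (T'.res1 H).comp w1 = w01.comp (T'.res1 F') := LinearMap.ext_on s1 (by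
      rintro _ ⟨t, rfl⟩
      rw [LinearMap.comp_apply, LinearMap.comp_apply, hw1, ← c1, hg, r1])
    exact fun s => LinearMap.congr_fun this s)
  refine ⟨⟨β, θ, ?_, ?_⟩⟩
  · apply (adj.homEquiv F H).injective
    rw [adj.homEquiv_unit, adj.homEquiv_unit, Functor.map_comp, ← Category.assoc, hψ,
      CategoryTheory.Functor.map_id]
    erw [Category.comp_id]
    refine T.hom_ext (fun t => ?_) (fun t => ?_)
    · refine (bijective_pushChart T.p0 T'.p0 Φ.a0 Φ.sq0 Φ.pre0 H).1 ?_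
      rw [chartApp_comp, pushChart_chartApp, p0, hf0, t0, hw0]
      rfl
    · refine (bijective_pushChart T.p1 T'.p1 Φ.a1 Φ.sq1 Φ.pre1 H).1 ?_
      rw [chartApp_comp, pushChart_chartApp, p1, hf1, t1, hw1]
      rfl
  · refine T'.hom_ext (fun s => ?_) (fun s => ?_)
    · have : (chartApp T'.p0 (θ ≫ β)) = LinearMap.id := LinearMap.ext_on s0 (by
        rintro _ ⟨t, rfl⟩
        rw [chartApp_comp, t0, hw0, LinearMap.id_apply]
        simp only [u0, LinearMap.comp_apply]
        rw [← pushChart_chartApp, ← chartApp_comp, hψ, p0, hf0])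
      rw [chartApp_id]
      exact LinearMap.congr_fun this s
    · have : (chartApp T'.p1 (θ ≫ β)) = LinearMap.id := LinearMap.ext_on s1 (by
        rintro _ ⟨t, rfl⟩
        rw [chartApp_comp, t1, hw1, LinearMap.id_apply]
        simp only [u1, LinearMap.comp_apply]
        rw [← pushChart_chartApp, ← chartApp_comp, hψ, p1, hf1])
      rw [chartApp_id]
      exact LinearMap.congr_fun this s

end CoverMap

end FermatLib.AV.SheafBridge
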