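import Fermat.Agent.AV.Jac.Bridge.Realize
import Fermat.Agent.AV.Jac.Bridge.Push

/-!
Change of coefficients of bundles corresponds to pullback of sheaves.
-/

set_option autoImplicit false
set_option backward.isDefEq.respectTransparency false

universe u

open CategoryTheory CategoryTheory.Limits AlgebraicGeometry NeronModelInfra
open AlgebraicGeometry.RelPicard
open scoped TensorProduct

namespace FermatLib.AV.SheafBridge

variable {k : Type u} [Field k] {C : Scheme.{u}} {c : C ⟶ Spec (CommRingCat.of k)}
  {R S : Type u} [CommRing R] [Algebra k R] [CommRing S] [Algebra k S] (φ : R →ₐ[k] S)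
  {A : Type u} [CommRing A] [Algebra k A]
  (i : Spec (CommRingCat.of A) ⟶ C) (hi : i ≫ c = Spec.map (CommRingCat.ofHom (algebraMap k A)))

lemma baseChangeSnd_fst :
    baseChangeSnd c (specHom φ) ≫ pullback.fst c (specStr k R) =
      pullback.fst c (specStr k S) := by
  rw [baseChangeSnd, pullback.lift_fst, Category.comp_id]

lemma baseChart_baseChangeSnd :
    Spec.map (CommRingCat.ofHom (Algebra.TensorProduct.map φ (AlgHom.id k A)).toRingHom) ≫
      baseChart R i hi = baseChart S i hi ≫ baseChangeSnd c (specHom φ) := by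
  apply pullback.hom_ext
  · rw [Category.assoc, Category.assoc, baseChangeSnd_fst, baseChart, baseChart, pullback.lift_fst,
      pullback.lift_fst, ← Category.assoc, ← Spec.map_comp, ← CommRingCat.ofHom_comp]
    congr 3
    ext a
    change Algebra.TensorProduct.map φ (AlgHom.id k A) (1 ⊗ₜ a) = 1 ⊗ₜ a
    simp
  · rw [baseChart, baseChart, baseChangeSnd, Category.assoc, Category.assoc, pullback.lift_snd,
      pullback.lift_snd, pullback.lift_snd_assoc, specHom, ← Spec.map_comp, ← Spec.map_comp,
      ← CommRingCat.ofHom_comp, ← CommRingCat.ofHom_comp]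
    congr 2

lemma preimage_baseChart [IsOpenImmersion i] :
    baseChangeSnd c (specHom φ) ⁻¹ᵁ (baseChart R i hi).opensRange =
      (baseChart S i hi).opensRange := by
  rw [opensRange_baseChart, opensRange_baseChart, ← Scheme.Hom.comp_preimage, baseChangeSnd_fst]

end FermatLib.AV.SheafBridge

namespace FermatLib.AV.CurveCharts

open SheafBridge

variable {k : Type u} [Field k] {C : Scheme.{u}} {c : C ⟶ Spec (CommRingCat.of k)}
  {ε : SchemeHomOver (𝟙 (Spec (CommRingCat.of k))) c} (P : CurveCharts k c ε)
  {R S : Type u} [CommRing R] [Algebra k R] [CommRing S] [Algebra k S] (φ : R →ₐ[k] S)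

/-- Change of coefficients as a morphism of two-chart covers. -/
noncomputable def coverMap :
    CoverMap (baseChangeSnd c (specHom φ)) (P.twoCover R) (P.twoCover S) where
  a0 := CommRingCat.ofHom (P.map0 φ).toRingHom
  a1 := CommRingCat.ofHom (P.map1 φ).toRingHom
  a01 := CommRingCat.ofHom (P.map01 φ).toRingHom
  sq0 := baseChart_baseChangeSnd φ P.i0 P.i0_base
  sq1 := baseChart_baseChangeSnd φ P.i1 P.i1_base
  sqq := baseChart_baseChangeSnd φ P.i01 P.i01_base
  pre0 := (preimage_baseChart φ P.i0 P.i0_base).le
  pre1 := (preimage_baseChart φ P.i1 P.i1_base).le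

lemma map01_r0 (a : P.R0 R) : P.map01 φ (P.r0 R a) = P.r0 S (P.map0 φ a) := by
  induction a using TensorProduct.induction_on with
  | zero => simp
  | tmul r x => rfl
  | add a b ha hb => simp [ha, hb]

lemma map01_r1 (a : P.R1 R) : P.map01 φ (P.r1 R a) = P.r1 S (P.map1 φ a) := by
  induction a using TensorProduct.induction_on with
  | zero => simp
  | tmul r x => rfl
  | add a b ha hb => simp [ha, hb]

variable {φ} {B : P.Bundle R} {B' : P.Bundle S} {g : B.M →+ B'.M}
  (hg : ChartData.Bundle.IsPullback φ B B' g)

/-- The map between the first lattices of a change of coefficients. -/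
noncomputable def latMap0 : B.L0 →ₛₗ[(P.map0 φ).toRingHom] B'.L0 where
  toFun m := ⟨g m.1, hg.span0.le (Submodule.subset_span ⟨m.1, m.2, rfl⟩)⟩
  map_add' m n := Subtype.ext (map_add g _ _)
  map_smul' a m := Subtype.ext (by
    change g (a • m.1) = P.map0 φ a • g m.1
    rw [← B.smul0, hg.map_smul, map01_r0, B'.smul0])

/-- The map between the second lattices of a change of coefficients. -/
noncomputable def latMap1 : B.L1 →ₛₗ[(P.map1 φ).toRingHom] B'.L1 where
  toFun m := ⟨g m.1, hg.span1.le (Submodule.subset_span ⟨m.1, m.2, rfl⟩)⟩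
  map_add' m n := Subtype.ext (map_add g _ _)
  map_smul' a m := Subtype.ext (by
    change g (a • m.1) = P.map1 φ a • g m.1
    rw [← B.smul1, hg.map_smul, map01_r1, B'.smul1])

lemma span_latMap0 : Submodule.span (P.R0 S) (Set.range (P.latMap0 hg)) = ⊤ := by
  refine Submodule.map_injective_of_injective B'.L0.injective_subtype ?_
  rw [Submodule.map_span, Submodule.map_top, Submodule.range_subtype, ← Set.range_comp]
  refine Eq.trans ?_ hg.span0
  congr 1
  ext m
  exact ⟨fun ⟨t, ht⟩ => ⟨t.1, t.2, ht⟩, fun ⟨t, ht, he⟩ => ⟨⟨t, ht⟩, he⟩⟩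

lemma span_latMap1 : Submodule.span (P.R1 S) (Set.range (P.latMap1 hg)) = ⊤ := by
  refine Submodule.map_injective_of_injective B'.L1.injective_subtype ?_
  rw [Submodule.map_span, Submodule.map_top, Submodule.range_subtype, ← Set.range_comp]
  refine Eq.trans ?_ hg.span1
  congr 1
  ext m
  exact ⟨fun ⟨t, ht⟩ => ⟨t.1, t.2, ht⟩, fun ⟨t, ht, he⟩ => ⟨⟨t, ht⟩, he⟩⟩

/-- A semilinear map conjugated by linear equivalences keeps a spanning image. -/
lemma span_range_conj {A A' M M' N N' : Type u} [CommRing A] [CommRing A'] {σ : A →+* A'}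
    [AddCommGroup M] [Module A M] [AddCommGroup M'] [Module A' M'] [AddCommGroup N] [Module A N]
    [AddCommGroup N'] [Module A' N'] (f : M →ₛₗ[σ] M') (e : N ≃ₗ[A] M) (e' : N' ≃ₗ[A'] M')
    (hf : Submodule.span A' (Set.range f) = ⊤) :
    Submodule.span A' (Set.range (e'.symm.toLinearMap.comp (f.comp e.toLinearMap))) = ⊤ := by
  rw [LinearMap.coe_comp, LinearMap.coe_comp, ← Function.comp_assoc, LinearEquiv.coe_coe e,
    e.surjective.range_comp, Set.range_comp, Submodule.span_image, hf, Submodule.map_top]
  exact e'.symm.range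

include hg in
theorem nonempty_pullback_iso {F : (pullback c (specStr k R)).Modules}
    {F' : (pullback c (specStr k S)).Modules} (h : P.Realization B F) (h' : P.Realization B' F') :
    Nonempty ((Scheme.Modules.pullback (baseChangeSnd c (specHom φ))).obj F ≅ F') := by
  have := h.qc
  have := h'.qc
  have : Module.Invertible (P.twoCover R).A0 (chartSec (P.twoCover R).p0 F) :=
    Module.Invertible.congr h.e0.symm
  have : Module.Invertible (P.twoCover R).A1 (chartSec (P.twoCover R).p1 F) :=
    Module.Invertible.congr h.e1.symm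
  have : Module.Invertible (P.twoCover S).A0 (chartSec (P.twoCover S).p0 F') :=
    Module.Invertible.congr h'.e0.symm
  have : Module.Invertible (P.twoCover S).A1 (chartSec (P.twoCover S).p1 F') :=
    Module.Invertible.congr h'.e1.symm
  let gM : B.M →ₛₗ[(P.map01 φ).toRingHom] B'.M :=
    { toFun := g, map_add' := map_add g, map_smul' := hg.map_smul }
  refine (P.coverMap φ).nonempty_pullback_iso
    (h'.e0.symm.toLinearMap.comp ((P.latMap0 hg).comp h.e0.toLinearMap))
    (h'.e1.symm.toLinearMap.comp ((P.latMap1 hg).comp h.e1.toLinearMap))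
    (h'.e01.symm.toLinearMap.comp (gM.comp h.e01.toLinearMap)) (fun t => ?_) (fun t => ?_)
    (span_range_conj _ h.e0 h'.e0 (P.span_latMap0 hg))
    (span_range_conj _ h.e1 h'.e1 (P.span_latMap1 hg))
  · apply h'.e01.injective
    simp only [LinearMap.comp_apply, LinearEquiv.coe_coe]
    erw [LinearEquiv.apply_symm_apply, h.comm0, h'.comm0, LinearEquiv.apply_symm_apply]
    rfl
  · apply h'.e01.injective
    simp only [LinearMap.comp_apply, LinearEquiv.coe_coe]
    erw [LinearEquiv.apply_symm_apply, h.comm1, h'.comm1, LinearEquiv.apply_symm_apply]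
    rfl

theorem toModules_pullback (φ : R →ₐ[k] S)
    (B : P.toChartData.Bundle R) (B' : P.toChartData.Bundle S) (g : B.M →+ B'.M)
    (hg : ChartData.Bundle.IsPullback φ B B' g) :
    Nonempty ((Scheme.Modules.pullback (baseChangeSnd c (specHom φ))).obj (P.toModules B) ≅
      P.toModules B') :=
  P.nonempty_pullback_iso hg (P.realization B) (P.realization B')

end FermatLib.AV.CurveCharts
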