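import Fermat.Agent.AV.Jac.Bridge.Chart

/-!
Pullback of the sheaf of a module along a morphism of affine schemes.
-/

set_option autoImplicit false
set_option backward.isDefEq.respectTransparency false

universe u

open CategoryTheory CategoryTheory.Limits AlgebraicGeometry TopologicalSpace Opposite

namespace FermatLib.AV.SheafBridge

variable {A B : CommRingCat.{u}} (φ : A ⟶ B)

/-- Global sections of a direct image on affine schemes are restriction of scalars. -/
noncomputable def gammaPushforwardIso :
    Scheme.Modules.pushforward (Spec.map φ) ⋙ moduleSpecΓFunctor (R := A) ≅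
      moduleSpecΓFunctor (R := B) ⋙ ModuleCat.restrictScalars φ.hom :=
  Functor.isoWhiskerRight (pushforwardCompModulesSpecToSheafIso φ)
    (TopCat.Sheaf.forget _ _ ⋙ (evaluation _ _).obj (.op ⊤))

/-- Pullback of a tilde sheaf along a morphism of affine schemes is the tilde of the extension of
scalars. -/
noncomputable def tildePullbackIso :
    tilde.functor A ⋙ Scheme.Modules.pullback (Spec.map φ) ≅
      ModuleCat.extendScalars φ.hom ⋙ tilde.functor B :=
  Adjunction.leftAdjointUniq
    (((tilde.adjunction (R := A)).comp
      (Scheme.Modules.pullbackPushforwardAdjunction (Spec.map φ))).ofNatIsoRight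
      (gammaPushforwardIso φ))
    ((ModuleCat.extendRestrictScalarsAdj φ.hom).comp (tilde.adjunction (R := B)))

end FermatLib.AV.SheafBridge
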