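import Fermat.Agent.AV.Jac.Bridge.Realize
import Fermat.Agent.AV.Jac.Bridge.TildePullback

/-!
Rigidifications of bundles and of their sheaves.
-/

set_option autoImplicit false
set_option backward.isDefEq.respectTransparency false

universe u

open CategoryTheory CategoryTheory.Limits AlgebraicGeometry NeronModelInfra AlgebraicGeometry.RelPicard
open scoped TensorProduct

namespace FermatLib.AV

namespace SheafBridge

variable {A B : CommRingCat.{u}}

/-- Extension of scalars of a module along a retraction of an algebra is the quotient by the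
kernel. -/
theorem nonempty_extendScalars_equiv {R A : Type u} [CommRing R] [CommRing A] [Algebra R A]
    (φ : A →ₐ[R] R) (M : Type u) [AddCommGroup M] [Module A M] [Module R M]
    [IsScalarTower R A M] :
    Nonempty ((M ⧸ (RingHom.ker φ • (⊤ : Submodule A M))) ≃ₗ[R]
      (ModuleCat.extendScalars (CommRingCat.ofHom φ.toRingHom).hom).obj (ModuleCat.of A M)) := by
  let _ : Algebra A R := φ.toRingHom.toAlgebra
  have hφ : Function.Surjective φ := fun r => ⟨algebraMap R A r, φ.commutes r⟩
  let e := TensorProduct.quotTensorEquivQuotSMul M (RingHom.ker φ)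
  let i : (A ⧸ RingHom.ker φ) ≃ₗ[A] R :=
    (Ideal.quotientKerAlgEquivOfSurjective (f := Algebra.ofId A R) hφ).toLinearEquiv
  let E := e.symm.trans (TensorProduct.congr i (LinearEquiv.refl A M))
  have hE : ∀ m : M, E (Submodule.Quotient.mk m) = (1 : R) ⊗ₜ[A] m := fun m => by
    simp only [E, e, LinearEquiv.trans_apply, TensorProduct.quotTensorEquivQuotSMul_symm_mk,
      TensorProduct.congr_tmul, LinearEquiv.refl_apply]
    rw [show i 1 = 1 from map_one
      (Ideal.quotientKerAlgEquivOfSurjective (f := Algebra.ofId A R) hφ)]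
  refine ⟨{ toFun := fun z => E z, invFun := fun z => E.symm z,
            left_inv := E.symm_apply_apply, right_inv := E.apply_symm_apply,
            map_add' := map_add E, map_smul' := fun r z => ?_ }⟩
  obtain ⟨m, rfl⟩ := Submodule.mkQ_surjective _ z
  simp only [Submodule.mkQ_apply, RingHom.id_apply]
  have h1 : r • (Submodule.Quotient.mk m : M ⧸ (RingHom.ker φ • (⊤ : Submodule A M))) =
      Submodule.Quotient.mk (algebraMap R A r • m) := by
    rw [algebraMap_smul]; rfl
  have h2 : (1 : R) ⊗ₜ[A] (algebraMap R A r • m) = (r * 1) ⊗ₜ[A] m := by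
    rw [← TensorProduct.smul_tmul]
    congr 1
    change φ (algebraMap R A r) * 1 = r * 1
    rw [φ.commutes]
    rfl
  rw [h1, hE, hE, h2]
  rfl

/-- The pullback of a sheaf along a point of a chart. -/
theorem nonempty_pullback_chart_iso {X : Scheme.{u}} {A B : CommRingCat.{u}} (p : Spec A ⟶ X)
    [IsOpenImmersion p] (φ : A ⟶ B) (σ : Spec B ⟶ X) (hσ : σ = Spec.map φ ≫ p) (F : X.Modules)
    (M : ModuleCat.{u} A) (e : chartSec p F ≃ₗ[A] M) (hiso : IsIso (F.restrict p).fromTildeΓ) :
    Nonempty ((Scheme.Modules.pullback σ).obj F ≅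
      tilde ((ModuleCat.extendScalars φ.hom).obj M)) := by
  let Γ0 : (modulesSpecToSheaf.obj (F.restrict p)).presheaf.obj (.op ⊤) ≅ M :=
    e.toModuleIso (X₁ := _)
  let q := @asIso _ _ _ _ (F.restrict p).fromTildeΓ hiso
  let t := (tilde.functor A).mapIso Γ0
  exact ⟨(Scheme.Modules.pullbackCongr hσ).app F ≪≫
    ((Scheme.Modules.pullbackComp _ _).app F).symm ≪≫
    (Scheme.Modules.pullback _).mapIso
      (((Scheme.Modules.restrictFunctorIsoPullback p).app F).symm ≪≫ q.symm ≪≫ t) ≪≫
    (tildePullbackIso φ).app _⟩

end SheafBridge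

namespace CurveCharts

open SheafBridge

variable {k : Type u} [Field k] {C : Scheme.{u}} {c : C ⟶ Spec (CommRingCat.of k)}
  {ε : SchemeHomOver (𝟙 (Spec (CommRingCat.of k))) c} (P : CurveCharts k c ε)
  {R : Type u} [CommRing R] [Algebra k R]

/-- The marked section factors through the first chart. -/
theorem rigSection_eq_baseChart :
    rigSection c (specStr k R) ε =
      Spec.map (CommRingCat.ofHom (P.toChartData.εR R).toRingHom) ≫ (P.twoCover R).p0 := by
  apply pullback.hom_ext
  · rw [rigSection, pullback.lift_fst, Category.assoc]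
    change _ = _ ≫ baseChart R P.i0 P.i0_base ≫ pullback.fst c (specStr k R)
    rw [baseChart, pullback.lift_fst, ← Category.assoc, ← Spec.map_comp, ← P.i0_ε,
      ← Category.assoc, specStr, ← Spec.map_comp, ← CommRingCat.ofHom_comp,
      ← CommRingCat.ofHom_comp]
    congr 3
    ext a
    change algebraMap k R (P.ε0 a) = P.toChartData.εR R ((1 : R) ⊗ₜ[k] a)
    rw [ChartData.εR_tmul, one_mul]
  · rw [rigSection, pullback.lift_snd, Category.assoc]
    change _ = _ ≫ baseChart R P.i0 P.i0_base ≫ pullback.snd c (specStr k R)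
    rw [baseChart, pullback.lift_snd, ← Spec.map_comp, ← CommRingCat.ofHom_comp]
    refine (Spec.map_id _).symm.trans (congrArg (fun f => Spec.map (CommRingCat.ofHom f)) ?_)
    ext r
    exact ((P.toChartData.εR R).commutes r).symm

variable {P}

namespace Realization

variable {B : P.Bundle R} {F : (pullback c (specStr k R)).Modules}

/-- The pullback along the marked section is the sheaf of the fibre at the marked point. -/
theorem nonempty_rigPullback_iso (h : P.Realization B F) :
    Nonempty ((Scheme.Modules.pullback (rigSection c (specStr k R) ε)).obj F ≅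
      tilde ((ModuleCat.extendScalars
        (CommRingCat.ofHom (P.toChartData.εR R).toRingHom).hom).obj
          (ModuleCat.of (P.R0 R) B.L0))) := by
  have := h.qc
  exact nonempty_pullback_chart_iso (P.twoCover R).p0
    (CommRingCat.ofHom (P.toChartData.εR R).toRingHom) _ P.rigSection_eq_baseChart F
    (ModuleCat.of (P.R0 R) B.L0) h.e0 ((P.twoCover R).isIso0 (F := F))

/-- Rigidifications of a bundle and of a sheaf realising it correspond. -/
theorem isRigidifiable_iff (h : P.Realization B F) :
    B.IsRigidifiable ↔ Nonempty ((Scheme.Modules.pullback (rigSection c (specStr k R) ε)).obj F ≅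
      SheafOfModules.unit (Spec (CommRingCat.of R)).ringCatSheaf) := by
  obtain ⟨i⟩ := h.nonempty_rigPullback_iso
  obtain ⟨e⟩ := nonempty_extendScalars_equiv (P.toChartData.εR R) B.L0
  constructor
  · rintro ⟨r⟩
    exact ⟨i ≪≫ (tilde.functor _).mapIso ((e.symm.trans r).toModuleIso (X₁ := _)) ≪≫ tildeSelf⟩
  · rintro ⟨j⟩
    exact ⟨e.trans ((tilde.fullyFaithfulFunctor.preimageIso
      (i.symm ≪≫ j ≪≫ tildeSelf.symm)).toLinearEquiv)⟩

end Realization

variable (P)

theorem isRigidifiable_iff (B : P.toChartData.Bundle R) :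
    B.IsRigidifiable ↔ Nonempty ((Scheme.Modules.pullback (rigSection c (specStr k R) ε)).obj
      (P.toModules B) ≅ SheafOfModules.unit (Spec (CommRingCat.of R)).ringCatSheaf) :=
  (P.realization B).isRigidifiable_iff

end CurveCharts

end FermatLib.AV
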