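import Mathlib

/-!
A criterion for a module to be invertible.
-/

set_option autoImplicit false

universe u v

open scoped TensorProduct

namespace FermatLib.AV.SheafBridge

variable {A : Type u} [CommRing A] {M : Type v} [AddCommGroup M] [Module A M]

/-- A module which is free of rank one after inverting each element of a set generating the unit
ideal is invertible. -/
theorem invertible_of_local {S : Set A} (hS : Ideal.span S = ⊤)
    {B : S → Type u} [∀ g, CommRing (B g)] [∀ g, Algebra A (B g)]
    [∀ g : S, IsLocalization.Away g.1 (B g)]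
    {M' : S → Type v} [∀ g, AddCommGroup (M' g)] [∀ g, Module A (M' g)]
    [∀ g, Module (B g) (M' g)] [∀ g, IsScalarTower A (B g) (M' g)]
    (f : ∀ g, M →ₗ[A] M' g) [∀ g : S, IsLocalizedModule (Submonoid.powers g.1) (f g)]
    (e : ∀ g, M' g ≃ₗ[B g] B g) : Module.Invertible A M := by
  have hfree : ∀ g, Module.FinitePresentation (B g) (M' g) := fun g =>
    Module.finitePresentation_of_free_of_surjective (e g).symm.toLinearMap (e g).symm.surjective
      (by rw [LinearEquiv.ker]; exact Submodule.fg_bot)
  have : Module.FinitePresentation A M :=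
    Module.FinitePresentation.of_localizationSpan' S hS f hfree
  -- being zero is local
  have hzero : ∀ d : M, (∀ g, f g d = 0) → d = 0 := fun d hd => by
    have := Submodule.mem_of_span_eq_top_of_smul_pow_mem (⊥ : Submodule A M) S hS d fun g => by
      obtain ⟨⟨_, n, rfl⟩, hn⟩ :=
        (IsLocalizedModule.eq_zero_iff (.powers g.1) (f g)).1 (hd g)
      exact ⟨n, (Submodule.mem_bot A).2 hn⟩
    simpa using this
  -- evaluation is symmetric
  have hsymm : ∀ (φ : Module.Dual A M) (m m' : M), φ m • m' = φ m' • m := by
    intro φ m m'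
    rw [← sub_eq_zero]
    refine hzero _ fun g => (e g).injective ?_
    let ψ : M' g →ₗ[B g] B g :=
      LinearMap.extendScalarsOfIsLocalization (.powers g.1) (B g)
        (IsLocalizedModule.map (.powers g.1) (f g) (Algebra.linearMap A (B g)) φ)
    have hψ : ∀ x, ψ (f g x) = algebraMap A (B g) (φ x) := fun x => by
      simp [ψ]
    have key : ∀ y : M' g, ψ y = e g y * ψ ((e g).symm 1) := fun y => by
      rw [← smul_eq_mul, ← map_smul, ← LinearEquiv.map_smul, smul_eq_mul, mul_one,
        LinearEquiv.symm_apply_apply]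
    simp only [map_sub, map_smul, map_zero]
    rw [← algebraMap_smul (B g) (φ m) (f g m'), ← algebraMap_smul (B g) (φ m') (f g m)]
    simp only [map_smul, smul_eq_mul, ← hψ, key (f g m), key (f g m')]
    ring
  -- local functionals
  have hfun : ∀ g : S, ∃ n : ℕ, ∃ (φ : Module.Dual A M) (m : M), φ m = g.1 ^ n := by
    intro g
    let ψ : M →ₗ[A] B g := (e g).toLinearMap.restrictScalars A ∘ₗ f g
    obtain ⟨φ, ⟨_, a, rfl⟩, hφ⟩ := Module.FinitePresentation.exists_lift_of_isLocalizedModule
      (.powers g.1) (Algebra.linearMap A (B g)) ψ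
    obtain ⟨⟨m, ⟨_, b, rfl⟩⟩, hm⟩ :=
      IsLocalizedModule.surj (.powers g.1) (f g) ((e g).symm 1)
    have h1 : algebraMap A (B g) (φ m) = algebraMap A (B g) (g.1 ^ (a + b)) := by
      have := LinearMap.congr_fun hφ m
      simp only [LinearMap.comp_apply, Algebra.linearMap_apply, LinearMap.smul_apply] at this
      rw [this]
      change (g.1 ^ a) • e g (f g m) = _
      have hm' : g.1 ^ b • (e g).symm 1 = f g m := hm
      rw [← hm', ← algebraMap_smul (B g) (g.1 ^ b) ((e g).symm 1), map_smul,
        LinearEquiv.apply_symm_apply]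
      simp [Algebra.smul_def, pow_add]
    obtain ⟨⟨_, c, rfl⟩, hc⟩ := IsLocalization.exists_of_eq (M := .powers g.1) h1
    exact ⟨c + (a + b), g.1 ^ c • φ, m, by simpa [pow_add] using hc⟩
  -- surjectivity and injectivity of the contraction
  have hone : (1 : A) ∈ LinearMap.range (contractLeft A M) := by
    refine Submodule.mem_of_span_eq_top_of_smul_pow_mem _ S hS _ fun g => ?_
    obtain ⟨n, φ, m, h⟩ := hfun g
    exact ⟨n, φ ⊗ₜ m, by simp [h]⟩
  obtain ⟨t, ht⟩ := hone
  refine ⟨Function.bijective_iff_has_inverse.2 ⟨fun a => a • t, fun s => ?_, fun a => ?_⟩⟩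
  · have key : ∀ (φ : Module.Dual A M) (m : M) (z : Module.Dual A M ⊗[A] M),
        φ m • z = contractLeft A M z • (φ ⊗ₜ[A] m) := by
      intro φ m z
      induction z using TensorProduct.induction_on with
      | zero => simp
      | tmul φ' m' =>
        rw [contractLeft_apply, ← TensorProduct.tmul_smul, hsymm φ m m', TensorProduct.tmul_smul,
          TensorProduct.smul_tmul', TensorProduct.smul_tmul']
        congr 1
        ext x
        have := congrArg φ (hsymm φ' m' x)
        simpa [mul_comm] using this.symm
      | add x y hx hy => rw [smul_add, hx, hy, map_add, add_smul]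
    induction s using TensorProduct.induction_on with
    | zero => simp
    | tmul φ m => rw [contractLeft_apply]; exact (key φ m t).trans (by rw [ht, one_smul])
    | add x y hx hy => simp only [map_add, add_smul] at hx hy ⊢; rw [hx, hy]
  · simp [ht]

/-- An invertible module is free of rank one after inverting some element outside a given prime. -/
theorem exists_local_linearEquiv [Module.Invertible A M] (P : Ideal A) [P.IsPrime] :
    ∃ g : A, g ∉ P ∧ ∀ (B : Type u) [CommRing B] [Algebra A B] [IsLocalization.Away g B]
      (N : Type v) [AddCommGroup N] [Module A N] [Module B N] [IsScalarTower A B N]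
      (f : M →ₗ[A] N) [IsLocalizedModule (Submonoid.powers g) f], Nonempty (N ≃ₗ[B] B) := by
  have hev : ∀ z : Module.Dual A M ⊗[A] M, contractLeft A M z ∈
      Ideal.span {a | ∃ (φ : Module.Dual A M) (m : M), φ m = a} := fun z => by
    induction z using TensorProduct.induction_on with
    | zero => simp
    | tmul φ m => exact Ideal.subset_span ⟨φ, m, rfl⟩
    | add x y hx hy => rw [map_add]; exact add_mem hx hy
  obtain ⟨z, hz⟩ := (Module.Invertible.bijective (R := A) (M := M)).2 1
  obtain ⟨g, ⟨φ, m, rfl⟩, hgP⟩ : ∃ g ∈ {a | ∃ (φ : Module.Dual A M) (m : M), φ m = a}, g ∉ P := by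
    by_contra! h
    exact Ideal.IsPrime.one_notMem ‹_› (Ideal.span_le.2 h (hz ▸ hev z))
  refine ⟨φ m, hgP, fun B _ _ _ N _ _ _ _ f _ => ?_⟩
  have : Module.Invertible B N := Module.Invertible.of_isLocalization (.powers (φ m)) f
  let ψ : N →ₗ[B] B := LinearMap.extendScalarsOfIsLocalization (.powers (φ m)) B
    (IsLocalizedModule.map (.powers (φ m)) f (Algebra.linearMap A B) φ)
  refine ⟨LinearEquiv.ofBijective ψ (Module.Invertible.bijective_of_surjective ?_)⟩
  refine LinearMap.range_eq_top.mp <| Ideal.eq_top_of_isUnit_mem _ ⟨f m, ?_⟩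
    (IsLocalization.Away.algebraMap_isUnit (φ m))
  simp [ψ]

end FermatLib.AV.SheafBridge
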