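import Fermat.Agent.AV.Jac.Bridge.Chart
import Fermat.Agent.AV.Jac.Bridge.Invertible
import Fermat.Prelude.Def_AlgebraicGeometry_RelativePicardFunctor

/-!
Invertible sheaves over affine charts and invertible modules.
-/

set_option autoImplicit false
set_option backward.isDefEq.respectTransparency false

universe u

open CategoryTheory CategoryTheory.Limits AlgebraicGeometry TopologicalSpace Opposite

namespace FermatLib.AV.SheafBridge

section Presentation

variable {C : Type u} [Category.{u} C] {J : GrothendieckTopology C} (R : Sheaf J RingCat.{u})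
  [HasSheafify J AddCommGrpCat.{u}] [J.WEqualsLocallyBijective AddCommGrpCat.{u}]

/-- The structure sheaf is the cokernel of the zero map between free sheaves. -/
noncomputable def unitPresentation : (SheafOfModules.unit R).Presentation := by
  let e : SheafOfModules.free (R := R) PUnit.{u + 1} ≅ SheafOfModules.unit R :=
    coproductUniqueIso (fun _ : PUnit.{u + 1} => SheafOfModules.unit R)
  refine SheafOfModules.presentationOfIsCokernelFree (ι := PEmpty.{u + 1}) 0 e.hom zero_comp
    (CokernelCofork.IsColimit.ofπ _ _ (fun g _ => e.inv ≫ g)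
      (fun g _ => e.hom_inv_id_assoc g) (fun g _ m hm => ?_))
  rw [← hm, e.inv_hom_id_assoc]

end Presentation

variable {X : Scheme.{u}} {A B : CommRingCat.{u}}

/-- A sheaf trivial near each point is quasicoherent. -/
theorem isQuasicoherent_of_isInvertible {L : X.Modules} (hL : Scheme.Modules.IsInvertible L) :
    L.IsQuasicoherent := by
  choose U hxU hU using hL.1
  refine SheafOfModules.QuasicoherentData.isQuasicoherent.{u} (R := X.ringCatSheaf) (M := L)
    ({ I := X
       X := fun x => U x
       coversTop := (Opens.coversTop_iff _ (fun x => U x)).2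
        (eq_top_iff.2 fun x _ => Opens.mem_iSup.2 ⟨x, hxU x⟩)
       presentation := fun x => ?_ } :
      SheafOfModules.QuasicoherentData.{u} (R := X.ringCatSheaf) L)
  let e : L.restrict (U x).ι ≅ SheafOfModules.unit (U x).toScheme.ringCatSheaf :=
    (Scheme.Modules.restrictFunctorIsoPullback _).app L ≪≫ (hU x).some
  let e' : SheafOfModules.over L (U x) ≅ SheafOfModules.unit (X.ringCatSheaf.over (U x)) :=
    (Scheme.Modules.overEquiv (U x)).fullyFaithfulFunctor.preimageIso
      ((Scheme.Modules.overFunctorEquiv (U x)).app L ≪≫ e ≪≫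
        (Scheme.Modules.restrictUnitIso (U x).ι).symm ≪≫
        ((Scheme.Modules.overFunctorEquiv (U x)).app _).symm)
  exact SheafOfModules.Presentation.ofIsIso e'.inv (unitPresentation _)

theorem IsInvertible.of_iso {L L' : X.Modules} (e : L ≅ L') (hL : Scheme.Modules.IsInvertible L) :
    Scheme.Modules.IsInvertible L' := by
  refine ⟨fun x => ?_⟩
  obtain ⟨U, hx, ⟨i⟩⟩ := hL.1 x
  exact ⟨U, hx, ⟨(Scheme.Modules.pullback U.ι).mapIso e.symm ≪≫ i⟩⟩

variable (p : Spec A ⟶ X) [IsOpenImmersion p]

theorem isIso_fromTildeΓ_of_isInvertible {L : X.Modules} (hL : Scheme.Modules.IsInvertible L) :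
    IsIso (L.restrict p).fromTildeΓ := by
  have := isQuasicoherent_of_isInvertible hL
  infer_instance

/-- An element of a module as a global section of its sheaf, as a linear equivalence. -/
noncomputable def topEquiv (M : ModuleCat.{u} A) : M ≃ₗ[A] Γ(tilde M, ⊤) :=
  LinearEquiv.ofBijective (tilde.toOpen M ⊤).hom (ConcreteCategory.bijective_of_isIso _)

/-- The global sections of the structure sheaf of an affine scheme. -/
noncomputable def unitEquiv (A : CommRingCat.{u}) :
    A ≃ₗ[A] Γ((SheafOfModules.unit (Spec A).ringCatSheaf : (Spec A).Modules), ⊤) :=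
  topEquiv (ModuleCat.of A A)

/-- A trivialisation of a restriction gives a trivialisation of the sections over the chart. -/
noncomputable def chartTriv {L : X.Modules}
    (e : L.restrict p ≅ (SheafOfModules.unit (Spec A).ringCatSheaf : (Spec A).Modules)) :
    chartSec p L ≃ₗ[A] A :=
  ((LinearEquiv.ofLinearMap (chartMap e.hom) (chartMap e.inv)
    (LinearMap.ext fun s => by
      change e.hom.app ⊤ (e.inv.app ⊤ s) = s
      rw [← ConcreteCategory.comp_apply, ← Scheme.Modules.Hom.comp_app, e.inv_hom_id]; rfl)
    (LinearMap.ext fun s => by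
      change e.inv.app ⊤ (e.hom.app ⊤ s) = s
      rw [← ConcreteCategory.comp_apply, ← Scheme.Modules.Hom.comp_app, e.hom_inv_id]; rfl)) :
    Γ(L.restrict p, ⊤) ≃ₗ[A] Γ((SheafOfModules.unit (Spec A).ringCatSheaf : (Spec A).Modules), ⊤)).trans
    (unitEquiv A).symm

/-- The localization at an element. -/
noncomputable def locRing (g : A) : CommRingCat.{u} := CommRingCat.of (Localization.Away g)

noncomputable instance locRingAlgebra (g : A) : Algebra A (locRing g) :=
  inferInstanceAs (Algebra A (Localization.Away g))

instance (g : A) : IsLocalization.Away g (locRing g) :=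
  inferInstanceAs (IsLocalization.Away g (Localization.Away g))

/-- The localization map at an element. -/
noncomputable abbrev locMap (g : A) : A ⟶ locRing g :=
  CommRingCat.ofHom (algebraMap A (locRing g))

instance (g : A) : IsOpenImmersion (Spec.map (locMap g)) :=
  IsOpenImmersion.of_isLocalization g

/-- The composite of the principal localization with a chart. -/
noncomputable def awayChart (g : A) : Spec (locRing g) ⟶ X :=
  Spec.map (locMap g) ≫ p

instance (g : A) : IsOpenImmersion (awayChart p g) := by
  unfold awayChart; infer_instance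

omit [IsOpenImmersion p] in
lemma awayChart_eq (g : A) : Spec.map (locMap g) ≫ p = awayChart p g := rfl

lemma opensRange_awayChart (g : A) :
    (awayChart p g).opensRange = p ''ᵁ PrimeSpectrum.basicOpen g := by
  ext y
  have hr : Set.range (Spec.map (locMap g)) =
      ((PrimeSpectrum.basicOpen g : Opens (PrimeSpectrum A)) : Set (PrimeSpectrum A)) :=
    PrimeSpectrum.localization_away_comap_range (locRing g) g
  constructor
  · rintro ⟨z, rfl⟩
    exact ⟨_, hr.le ⟨z, rfl⟩, rfl⟩
  · rintro ⟨z, hz, rfl⟩
    obtain ⟨w, rfl⟩ := hr.ge hz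
    exact ⟨w, rfl⟩

/-- Restriction to a principal chart, as a linear map. -/
noncomputable def awayRes (F : X.Modules) (g : A) :
    letI := Module.compHom (chartSec (awayChart p g) F) (algebraMap A (locRing g))
    chartSec p F →ₗ[A] chartSec (awayChart p g) F :=
  letI := Module.compHom (chartSec (awayChart p g) F) (algebraMap A (locRing g))
  { toFun := chartRes p (awayChart p g) _ (awayChart_eq p g) F
    map_add' := map_add _
    map_smul' := fun a s => (chartRes p (awayChart p g) _ (awayChart_eq p g) F).map_smulₛₗ a s }

theorem isLocalizedModule_awayRes (F : X.Modules) (g : A) [IsIso (F.restrict p).fromTildeΓ] :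
    letI := Module.compHom (chartSec (awayChart p g) F) (algebraMap A (locRing g))
    IsLocalizedModule (Submonoid.powers g) (awayRes p F g) := by
  let := Module.compHom (chartSec (awayChart p g) F) (algebraMap A (locRing g))
  obtain ⟨h1, h2⟩ := isLocalizedModule_chartRes p (awayChart p g)
    (locMap g) (awayChart_eq p g) (F := F) g
    (by
      rw [show (locMap g).hom.toAlgebra = locRingAlgebra g from
        Algebra.algebra_ext _ _ fun _ => rfl]
      infer_instance)
  refine IsLocalizedModule.Away.mk_of_addCommGroup ?_ ?_ ?_
  · rw [Module.End.isUnit_iff]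
    have hu : IsUnit (algebraMap A (locRing g) g) :=
      IsLocalization.Away.algebraMap_isUnit g
    refine ⟨fun a b hab => hu.smul_left_cancel.1 hab,
      fun b => ⟨(↑hu.unit⁻¹ : locRing g) • b, ?_⟩⟩
    change algebraMap A (locRing g) g • (↑hu.unit⁻¹ : locRing g) • b = b
    rw [smul_smul, IsUnit.mul_val_inv, one_smul]
  · intro s
    obtain ⟨n, t, ht⟩ := h1 s
    refine ⟨n, t, ?_⟩
    change algebraMap A (locRing g) (g ^ n) • s = _
    rw [map_pow]
    exact ht.symm
  · intro t ht
    exact h2 t ht

/-- The sections of an invertible sheaf over an affine chart form an invertible module. -/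
theorem invertible_chartSec {L : X.Modules} (hL : Scheme.Modules.IsInvertible L) :
    Module.Invertible A (chartSec p L) := by
  have := isIso_fromTildeΓ_of_isInvertible p hL
  let S : Set A := {g | Nonempty (L.restrict (awayChart p g) ≅
    SheafOfModules.unit (Spec (locRing g)).ringCatSheaf)}
  have hS : Ideal.span S = ⊤ := by
    by_contra hne
    obtain ⟨m, hm, hle⟩ := Ideal.exists_le_maximal _ hne
    let x : Spec A := (⟨m, hm.isPrime⟩ : PrimeSpectrum A)
    obtain ⟨U, hxU, ⟨i⟩⟩ := hL.1 (p x)
    obtain ⟨_, ⟨_, ⟨g, rfl⟩, rfl⟩, hxg, hgU⟩ :=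
      PrimeSpectrum.isBasis_basic_opens.exists_subset_of_mem_open
        (show x ∈ p ⁻¹ᵁ U from hxU) (p ⁻¹ᵁ U).2
    have hr : Set.range (awayChart p g) ⊆ Set.range U.ι := by
      rw [Scheme.Opens.range_ι]
      intro y hy
      obtain ⟨z, hz, rfl⟩ := (opensRange_awayChart p g).le hy
      exact hgU hz
    let l := IsOpenImmersion.lift U.ι (awayChart p g) hr
    have hl : l ≫ U.ι = awayChart p g := IsOpenImmersion.lift_fac _ _ _
    have : IsOpenImmersion (l ≫ U.ι) := hl ▸ inferInstance
    have : IsOpenImmersion l := IsOpenImmersion.of_comp l U.ι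
    have hgS : g ∈ S := ⟨((Scheme.Modules.restrictFunctorCongr hl).app L).symm ≪≫
      (Scheme.Modules.restrictFunctorComp l U.ι).app L ≪≫
      (Scheme.Modules.restrictFunctor l).mapIso
        ((Scheme.Modules.restrictFunctorIsoPullback U.ι).app L ≪≫ i) ≪≫
      Scheme.Modules.restrictUnitIso l⟩
    exact hxg (hle (Ideal.subset_span hgS))
  let (g : S) := Module.compHom (chartSec (awayChart p g.1) L)
    (algebraMap A (locRing g.1))
  have (g : S) : IsScalarTower A (locRing g.1) (chartSec (awayChart p g.1) L) :=
    IsScalarTower.of_compHom _ _ _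
  have (g : S) := isLocalizedModule_awayRes p L g.1
  exact invertible_of_local (M' := fun g : S => chartSec (awayChart p g.1) L)
    (B := fun g : S => locRing g.1) hS (fun g => awayRes p L g.1)
    fun g => chartTriv (awayChart p g.1) g.2.some

/-- A quasicoherent module with invertible sections is trivial near each point. -/
theorem exists_trivialization_chart {L : X.Modules} [IsIso (L.restrict p).fromTildeΓ]
    [Module.Invertible A (chartSec p L)] (x : Spec A) :
    ∃ U : X.Opens, p x ∈ U ∧ Nonempty ((Scheme.Modules.pullback U.ι).obj L ≅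
      SheafOfModules.unit U.toScheme.ringCatSheaf) := by
  have := (show PrimeSpectrum A from x).isPrime
  obtain ⟨g, hxg, hg⟩ := exists_local_linearEquiv (A := A) (M := chartSec p L)
    (show PrimeSpectrum A from x).asIdeal
  refine ⟨(awayChart p g).opensRange, ?_, ?_⟩
  · rw [opensRange_awayChart]
    exact ⟨x, hxg, rfl⟩
  let q := awayChart p g
  let := Module.compHom (chartSec q L) (algebraMap A (locRing g))
  have : IsScalarTower A (locRing g) (chartSec q L) := IsScalarTower.of_compHom _ _ _
  have hloc := isLocalizedModule_awayRes p L g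
  have hqc := isIso_fromTildeΓ_restrict p (awayChart p g) (locMap g) (awayChart_eq p g) (F := L)
  obtain ⟨e⟩ := hg (locRing g) (chartSec q L) (awayRes p L g)
  let N : (Spec (locRing g)).Modules := SheafOfModules.unit _
  obtain ⟨θ, hθ⟩ := exists_hom_of_top (N := L.restrict q) (N' := N)
    (e.trans (unitEquiv (locRing g))).toLinearMap
  have : IsIso θ := isIso_of_bijective_top θ (by
    have := (e.trans (unitEquiv (locRing g))).bijective
    convert! this using 1
    exact funext hθ)
  exact ⟨((Scheme.Modules.restrictFunctorIsoPullback _).app L).symm ≪≫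
    (Scheme.Modules.restrictFunctorCongr q.isoOpensRange_inv_comp.symm).app L ≪≫
    (Scheme.Modules.restrictFunctorComp q.isoOpensRange.inv q).app L ≪≫
    (Scheme.Modules.restrictFunctor q.isoOpensRange.inv).mapIso (asIso θ) ≪≫
    Scheme.Modules.restrictUnitIso q.isoOpensRange.inv⟩

end FermatLib.AV.SheafBridge
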