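import Fermat.Agent.AV.Jac.Bridge.Hom

/-!
Sections of a sheaf of modules over an affine open chart.
-/

set_option autoImplicit false
set_option backward.isDefEq.respectTransparency false

universe u

open CategoryTheory CategoryTheory.Limits AlgebraicGeometry TopologicalSpace Opposite

namespace FermatLib.AV.SheafBridge

variable {X : Scheme.{u}} {A B : CommRingCat.{u}}

/-- The sections over an affine chart, as a module over its coordinate ring. -/
noncomputable abbrev chartSec (p : Spec A ⟶ X) [IsOpenImmersion p] (F : X.Modules) : Type u :=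
  Γ(F.restrict p, ⊤)

/-- The coordinate ring of a chart inside the sections of the structure sheaf. -/
noncomputable def coordMap (p : Spec A ⟶ X) [IsOpenImmersion p] : A ⟶ Γ(X, p ''ᵁ ⊤) :=
  (Scheme.ΓSpecIso A).inv ≫ (p.appIso ⊤).inv

variable (p : Spec A ⟶ X) [IsOpenImmersion p] (q : Spec B ⟶ X) [IsOpenImmersion q]
  (j : A ⟶ B) (hq : Spec.map j ≫ p = q) {F G : X.Modules}

include hq in
lemma image_top_le : q ''ᵁ ⊤ ≤ p ''ᵁ ⊤ := by
  subst hq
  rintro x ⟨y, -, rfl⟩
  exact ⟨Spec.map j y, trivial, rfl⟩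

lemma coordMap_res :
    coordMap p ≫ X.presheaf.map (homOfLE (image_top_le p q j hq)).op = j ≫ coordMap q := by
  have h := Scheme.ΓSpecIso_inv_naturality j
  rw [coordMap, coordMap, reassoc_of% h]
  simp only [Category.assoc]
  congr 1
  rw [← cancel_mono (q.appIso ⊤).hom]
  simp only [Category.assoc, Iso.inv_hom_id, Category.comp_id]
  subst hq
  rw [Scheme.Hom.appIso_hom', Scheme.Hom.map_appLE,
    ← Scheme.Hom.appLE_comp_appLE _ _ (p ''ᵁ ⊤) ⊤ ⊤ (by simp) (by simp),
    Scheme.Hom.appIso_inv_appLE_assoc]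
  simp [Scheme.Hom.appLE]

lemma chartSec_smul (a : A) (s : chartSec p F) :
    (F.restrictAppIso p ⊤).hom (a • s) = coordMap p a • (F.restrictAppIso p ⊤).hom s := by
  rw [Scheme.Modules.smul_Spec_def]
  simp
  rfl

/-- Restriction from a chart to a smaller one. -/
noncomputable def chartRes (F : X.Modules) : chartSec p F →ₛₗ[j.hom] chartSec q F where
  toFun s := (F.restrictAppIso q ⊤).inv
    (rs F (image_top_le p q j hq) ((F.restrictAppIso p ⊤).hom s))
  map_add' s t := by simp only [map_add]
  map_smul' a s := by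
    apply (ConcreteCategory.bijective_of_isIso (F.restrictAppIso q ⊤).hom).1
    rw [chartSec_smul, rs_smul, chartSec_smul]
    simp only [Iso.inv_hom_id_apply]
    congr 1
    exact CategoryTheory.congr_fun (coordMap_res p q j hq) a

lemma chartRes_apply (s : chartSec p F) :
    (F.restrictAppIso q ⊤).hom (chartRes p q j hq F s) =
      rs F (image_top_le p q j hq) ((F.restrictAppIso p ⊤).hom s) := by
  simp [chartRes]

/-- The map on chart sections induced by a morphism of restrictions. -/
noncomputable def chartMap {N N' : (Spec A).Modules} (θ : N ⟶ N') : Γ(N, ⊤) →ₗ[A] Γ(N', ⊤) where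
  toFun := θ.app ⊤
  map_add' := map_add _
  map_smul' a s := by
    rw [Scheme.Modules.smul_Spec_def, Scheme.Modules.smul_Spec_def]
    exact θ.app_smul _ _

@[simp] lemma chartMap_apply {N N' : (Spec A).Modules} (θ : N ⟶ N') (s : Γ(N, ⊤)) :
    chartMap θ s = θ.app ⊤ s := rfl

/-- The map on sections over a chart induced by a morphism. -/
noncomputable def chartApp (θ : F ⟶ G) : chartSec p F →ₗ[A] chartSec p G :=
  chartMap ((Scheme.Modules.restrictFunctor p).map θ)

lemma chartApp_apply (θ : F ⟶ G) (s : chartSec p F) :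
    (G.restrictAppIso p ⊤).hom (chartApp p θ s) =
      θ.app (p ''ᵁ ⊤) ((F.restrictAppIso p ⊤).hom s) := rfl

@[simp] lemma chartApp_id (s : chartSec p F) : chartApp p (𝟙 F) s = s := rfl

@[simp] lemma chartApp_comp {H : X.Modules} (θ : F ⟶ G) (θ' : G ⟶ H) (s : chartSec p F) :
    chartApp p (θ ≫ θ') s = chartApp p θ' (chartApp p θ s) := rfl

lemma chartRes_chartApp (θ : F ⟶ G) (s : chartSec p F) :
    chartRes p q j hq G (chartApp p θ s) = chartApp q θ (chartRes p q j hq F s) := by
  apply (ConcreteCategory.bijective_of_isIso (G.restrictAppIso q ⊤).hom).1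
  rw [chartRes_apply, chartApp_apply, chartApp_apply, chartRes_apply, hom_app_rs]

/-- The sections of an isomorphism over a chart. -/
noncomputable def chartEquiv (e : F ≅ G) : chartSec p F ≃ₗ[A] chartSec p G :=
  LinearEquiv.ofLinearMap (chartApp p e.hom) (chartApp p e.inv)
    (LinearMap.ext fun s => by
      rw [LinearMap.comp_apply, ← chartApp_comp, e.inv_hom_id, chartApp_id, LinearMap.id_apply])
    (LinearMap.ext fun s => by
      rw [LinearMap.comp_apply, ← chartApp_comp, e.hom_inv_id, chartApp_id, LinearMap.id_apply])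

@[simp] lemma chartEquiv_apply (e : F ≅ G) (s : chartSec p F) :
    chartEquiv p e s = chartApp p e.hom s := rfl

section Affine

variable {N N' : (Spec A).Modules}

/-- An element of a module as a global section of its sheaf. -/
noncomputable def topVal (M : ModuleCat.{u} A) (m : M) : Γ(tilde M, ⊤) :=
  (tilde.toOpen M ⊤).hom m

lemma tildeMap_topVal {M M' : ModuleCat.{u} A} (g : M ⟶ M') (m : M) :
    (tilde.map g).app ⊤ (topVal M m) = topVal M' (g m) :=
  ConcreteCategory.congr_hom (tilde.toOpen_map_app g ⊤) m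

lemma fromTildeΓ_topVal (N : (Spec A).Modules) (t : Γ(N, ⊤)) :
    N.fromTildeΓ.app ⊤ (topVal ((modulesSpecToSheaf.obj N).presheaf.obj (.op ⊤)) t) = t := by
  have h := ConcreteCategory.congr_hom (N.toOpen_fromTildeΓ_app ⊤) t
  rw [show (homOfLE (le_top : (⊤ : (Spec A).Opens) ≤ ⊤)).op = 𝟙 (op ⊤) from rfl,
    CategoryTheory.Functor.map_id] at h
  exact h

/-- A linear map on global sections comes from a morphism out of a quasicoherent module. -/
theorem exists_hom_of_top [IsIso N.fromTildeΓ] (f : Γ(N, ⊤) →ₗ[A] Γ(N', ⊤)) :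
    ∃ θ : N ⟶ N', ∀ s, θ.app ⊤ s = f s := by
  let g : (modulesSpecToSheaf.obj N).presheaf.obj (.op ⊤) ⟶
      (modulesSpecToSheaf.obj N').presheaf.obj (.op ⊤) :=
    (ModuleCat.ofHom f : ModuleCat.of A Γ(N, ⊤) ⟶ ModuleCat.of A Γ(N', ⊤))
  refine ⟨inv N.fromTildeΓ ≫ tilde.map g ≫ N'.fromTildeΓ, fun s => ?_⟩
  have hs : (inv N.fromTildeΓ).app ⊤ s = topVal ((modulesSpecToSheaf.obj N).presheaf.obj (.op ⊤)) s := by
    apply (ConcreteCategory.bijective_of_isIso (N.fromTildeΓ.app ⊤)).1
    rw [fromTildeΓ_topVal, ← ConcreteCategory.comp_apply, ← Scheme.Modules.Hom.comp_app,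
      IsIso.inv_hom_id]
    rfl
  have ht : (tilde.map g).app ⊤ (topVal ((modulesSpecToSheaf.obj N).presheaf.obj (.op ⊤)) s) =
      topVal ((modulesSpecToSheaf.obj N').presheaf.obj (.op ⊤)) (f s) :=
    tildeMap_topVal g s
  exact (congrArg (fun z => N'.fromTildeΓ.app ⊤ z) ((congrArg ((tilde.map g).app ⊤) hs).trans ht)).trans
    (fromTildeΓ_topVal N' (f s))

/-- Morphisms out of a quasicoherent module are determined by global sections. -/
theorem hom_ext_top [IsIso N.fromTildeΓ] {θ θ' : N ⟶ N'} (h : ∀ s, θ.app ⊤ s = θ'.app ⊤ s) :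
    θ = θ' := by
  rw [← cancel_epi N.fromTildeΓ]
  let adj := tilde.adjunction (R := A)
  apply (adj.homEquiv _ N').injective
  have e : moduleSpecΓFunctor.map θ = moduleSpecΓFunctor.map θ' := by
    ext s
    exact h s
  change adj.homEquiv _ _ (adj.counit.app N ≫ θ) = adj.homEquiv _ _ (adj.counit.app N ≫ θ')
  exact (adj.homEquiv_naturality_right _ _).trans
    ((congrArg (_ ≫ ·) e).trans (adj.homEquiv_naturality_right _ _).symm)

/-- A morphism of quasicoherent modules is an isomorphism if it is bijective on global sections. -/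
theorem isIso_of_bijective_top [IsIso N.fromTildeΓ] [IsIso N'.fromTildeΓ] (θ : N ⟶ N')
    (h : Function.Bijective (θ.app ⊤)) : IsIso θ := by
  obtain ⟨θ', hθ'⟩ := exists_hom_of_top
    (N := N') (N' := N) (LinearEquiv.ofBijective (chartMap θ) h).symm.toLinearMap
  refine ⟨θ', hom_ext_top fun s => ?_, hom_ext_top fun s => ?_⟩
  · change θ'.app ⊤ (θ.app ⊤ s) = s
    rw [hθ']
    exact (LinearEquiv.ofBijective (chartMap θ) h).symm_apply_apply s
  · change θ.app ⊤ (θ'.app ⊤ s) = s
    rw [hθ']
    exact (LinearEquiv.ofBijective (chartMap θ) h).apply_symm_apply s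

end Affine

open PrimeSpectrum in
/-- Sections over a principal open come from global sections after multiplying by a power. -/
theorem exists_pow_smul_eq_map {N : (Spec A).Modules} [IsIso N.fromTildeΓ] (x : A)
    (s : Γ(N, basicOpen x)) :
    ∃ (n : ℕ) (t : Γ(N, ⊤)), N.presheaf.map (basicOpen x).leTop.op t = x ^ n • s := by
  have h : IsLocalizing (modulesSpecToSheaf.obj N) := (isIso_fromTildeΓ_iff_isLocalizing _).1 ‹_›
  have hx : IsLocalizedModule.Away x
      ((modulesSpecToSheaf.obj N).obj.map (basicOpen x).leTop.op).hom := h x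
  obtain ⟨n, t, ht⟩ := hx.surj _ _ s
  exact ⟨n, t, ht.symm⟩

open PrimeSpectrum in
/-- A global section vanishing on a principal open is killed by a power. -/
theorem exists_pow_smul_eq_zero {N : (Spec A).Modules} [IsIso N.fromTildeΓ] (x : A)
    (t : Γ(N, ⊤)) (ht : N.presheaf.map (basicOpen x).leTop.op t = 0) :
    ∃ n : ℕ, x ^ n • t = 0 := by
  have h : IsLocalizing (modulesSpecToSheaf.obj N) := (isIso_fromTildeΓ_iff_isLocalizing _).1 ‹_›
  have := h x
  obtain ⟨⟨_, n, rfl⟩, hn⟩ := (IsLocalizedModule.eq_zero_iff (.powers x)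
    ((modulesSpecToSheaf.obj N).obj.map (basicOpen x).leTop.op).hom).mp ht
  exact ⟨n, hn⟩

theorem isIso_fromTildeΓ_of_iso {N N' : (Spec A).Modules} (e : N ≅ N') [IsIso N.fromTildeΓ] :
    IsIso N'.fromTildeΓ :=
  isIso_fromTildeΓ_iff.2 ((isIso_fromTildeΓ_iff.1 ‹_›).elim fun M ⟨e'⟩ => ⟨M, ⟨e' ≪≫ e⟩⟩)

/-- Restriction to a smaller chart, in two steps. -/
noncomputable def restrictTwiceIso (F : X.Modules) [IsOpenImmersion (Spec.map j)] :
    (F.restrict p).restrict (Spec.map j) ≅ F.restrict q :=
  ((Scheme.Modules.restrictFunctorComp (Spec.map j) p).app F).symm ≪≫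
    (Scheme.Modules.restrictFunctorCongr hq).app F

include hq in
theorem isIso_fromTildeΓ_restrict [IsOpenImmersion (Spec.map j)]
    [IsIso (F.restrict p).fromTildeΓ] : IsIso (F.restrict q).fromTildeΓ := by
  have : (F.restrict p).IsQuasicoherent := (isQuasicoherent_iff_isIso_fromTildeΓ _).2 ‹_›
  exact isIso_fromTildeΓ_of_iso (restrictTwiceIso p q j hq F)

open PrimeSpectrum in
/-- The sections over a principal chart are a localization. -/
theorem isLocalizedModule_chartRes (x : A)
    (hj : @IsLocalization.Away A _ x B _ j.hom.toAlgebra) [IsIso (F.restrict p).fromTildeΓ] :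
    (∀ s : chartSec q F, ∃ (n : ℕ) (t : chartSec p F),
      chartRes p q j hq F t = j x ^ n • s) ∧
    ∀ t : chartSec p F, chartRes p q j hq F t = 0 → ∃ n : ℕ, x ^ n • t = 0 := by
  let _ := j.hom.toAlgebra
  have hrange : q ''ᵁ ⊤ = p ''ᵁ basicOpen x := by
    subst hq
    have : Set.range (Spec.map j) = ((basicOpen x : TopologicalSpace.Opens (PrimeSpectrum A)) :
        Set (PrimeSpectrum A)) := PrimeSpectrum.localization_away_comap_range B x
    ext y
    constructor
    · rintro ⟨z, -, rfl⟩
      exact ⟨Spec.map j z, this ▸ ⟨z, rfl⟩, rfl⟩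
    · rintro ⟨z, hz, rfl⟩
      obtain ⟨w, rfl⟩ := this.ge hz
      exact ⟨w, trivial, rfl⟩
  let e : Γ(F.restrict p, basicOpen x) →+ chartSec q F :=
    (F.restrictAppIso q ⊤).inv.hom.comp
      ((rs F hrange.le).comp (F.restrictAppIso p (basicOpen x)).hom.hom)
  have he : Function.Bijective e := by
    have hb : Function.Bijective (rs F hrange.le) := by
      refine ⟨fun a b hab => ?_, fun b => ⟨rs F hrange.ge b, ?_⟩⟩
      · simpa using congrArg (rs F hrange.ge) hab
      · simp
    exact (ConcreteCategory.bijective_of_isIso (F.restrictAppIso q ⊤).inv).comp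
      (hb.comp (ConcreteCategory.bijective_of_isIso (F.restrictAppIso p (basicOpen x)).hom))
  have hres : ∀ t : chartSec p F, chartRes p q j hq F t =
      e ((F.restrict p).presheaf.map (basicOpen x).leTop.op t) := fun t => by
    change (F.restrictAppIso q ⊤).inv (rs F _ t) =
      (F.restrictAppIso q ⊤).inv (rs F hrange.le (rs F (p.image_mono le_top) t))
    exact congrArg _ (rs_rs _ _ _).symm
  refine ⟨fun s => ?_, fun t ht => ?_⟩
  · obtain ⟨s', rfl⟩ := he.2 s
    obtain ⟨n, t, ht⟩ := exists_pow_smul_eq_map x s'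
    refine ⟨n, t, ?_⟩
    rw [hres]
    rw [ht]
    apply (ConcreteCategory.bijective_of_isIso (F.restrictAppIso q ⊤).hom).1
    rw [chartSec_smul]
    change (F.restrictAppIso q ⊤).hom ((F.restrictAppIso q ⊤).inv
      (rs F hrange.le ((F.restrictAppIso p (basicOpen x)).hom (x ^ n • s')))) = _
    simp only [Iso.inv_hom_id_apply]
    rw [show x ^ n • s' = (Spec A).presheaf.map (basicOpen x).leTop.op
      ((Scheme.ΓSpecIso A).inv (x ^ n)) • s' from Scheme.Modules.smul_Spec_def _ _]
    rw [Scheme.Modules.smul_restrictAppIso_hom_apply, rs_smul]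
    congr 1
    · rw [← map_pow j.hom, show coordMap q (j (x ^ n)) =
          X.presheaf.map (homOfLE (image_top_le p q j hq)).op (coordMap p (x ^ n)) from
          (CategoryTheory.congr_fun (coordMap_res p q j hq) (x ^ n)).symm]
      have hn := Scheme.Hom.appIso_inv_naturality p
        (U := ⊤) (V := (basicOpen x : (Spec A).Opens)) (homOfLE le_top).op
      simp only [coordMap, CommRingCat.comp_apply]
      refine (congrArg _ (CategoryTheory.congr_fun hn _)).trans ?_
      simp only [CommRingCat.comp_apply]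
      rw [← CommRingCat.comp_apply, ← Functor.map_comp]
      rfl
  · have h0 : (F.restrict p).presheaf.map (basicOpen x).leTop.op t = 0 :=
      he.1 (by rw [← hres, ht, map_zero])
    exact exists_pow_smul_eq_zero x t h0

end FermatLib.AV.SheafBridge
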