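import Fermat.Agent.AV.Jac.Bridge.Affine

/-!
Localised modules as the sections of a quasicoherent module on a principal open.
-/

set_option autoImplicit false
set_option backward.isDefEq.respectTransparency false

universe u

open CategoryTheory CategoryTheory.Limits AlgebraicGeometry TopologicalSpace Opposite

namespace FermatLib.AV.SheafBridge

variable {A B : CommRingCat.{u}}

/-- `ι` exhibits its target as the localization of its source at the powers of `x`. -/
structure IsLocMap (j : A ⟶ B) (x : A) {M : Type u} [AddCommGroup M] [Module A M]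
    {P : Type u} [AddCommGroup P] [Module B P] (ι : M →ₛₗ[j.hom] P) : Prop where
  surj : ∀ s : P, ∃ (n : ℕ) (t : M), ι t = j x ^ n • s
  exists_of_eq_zero : ∀ t : M, ι t = 0 → ∃ n : ℕ, x ^ n • t = 0

section

variable {j : A ⟶ B} {x : A} {M M' : Type u} [AddCommGroup M] [Module A M] [AddCommGroup M']
  [Module A M'] {P P' : Type u} [AddCommGroup P] [Module B P] [AddCommGroup P'] [Module B P']
  {ι : M →ₛₗ[j.hom] P} {ι' : M' →ₛₗ[j.hom] P'}

/-- A compatible map of localizations is bijective when the map of the sources is. -/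
theorem IsLocMap.bijective (hι : IsLocMap j x ι) (hι' : IsLocMap j x ι') (hx : IsUnit (j x))
    {f : M →ₗ[A] M'} (hf : Function.Bijective f) {g : P →ₗ[B] P'}
    (h : ∀ t, g (ι t) = ι' (f t)) : Function.Bijective g := by
  refine ⟨(injective_iff_map_eq_zero _).2 fun s hs => ?_, fun s => ?_⟩
  · obtain ⟨n, t, ht⟩ := hι.surj s
    have h0 : ι' (f t) = 0 := by rw [← h, ht, map_smul, hs, smul_zero]
    obtain ⟨m, hm⟩ := hι'.exists_of_eq_zero _ h0
    rw [← map_smul] at hm
    have hm' := congrArg ι ((injective_iff_map_eq_zero _).1 hf.1 _ hm)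
    rw [map_smulₛₗ, map_zero, ht, map_pow, smul_smul] at hm'
    exact ((hx.pow m).mul (hx.pow n)).smul_left_cancel.1 (hm'.trans (smul_zero _).symm)
  · obtain ⟨n, t, ht⟩ := hι'.surj s
    obtain ⟨t', rfl⟩ := hf.2 t
    exact ⟨((hx.pow n).unit⁻¹ : Bˣ).val • ι t', by
      rw [map_smul, h, ht, smul_smul, IsUnit.val_inv_mul, one_smul]⟩

/-- Linear maps out of a localization are determined on the source. -/
theorem IsLocMap.ext (hι : IsLocMap j x ι) (hx : IsUnit (j x)) {g g' : P →ₗ[B] P'}
    (h : ∀ t, g (ι t) = g' (ι t)) : g = g' := by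
  refine LinearMap.ext fun s => ?_
  obtain ⟨n, t, ht⟩ := hι.surj s
  have := h t
  rw [ht, map_smul, map_smul] at this
  exact (hx.pow n).smul_left_cancel.1 this

/-- A semilinear map extends to a localization. -/
theorem IsLocMap.exists_lift (hι : IsLocMap j x ι)
    (hB : @IsLocalization.Away A _ x B _ j.hom.toAlgebra) (φ : M →ₛₗ[j.hom] P') :
    ∃ g : P →ₗ[B] P', ∀ t, g (ι t) = φ t := by
  algebraize [j.hom]
  let := Module.compHom P j.hom
  let := Module.compHom P' j.hom
  have : IsScalarTower A B P := IsScalarTower.of_compHom _ _ _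
  have : IsScalarTower A B P' := IsScalarTower.of_compHom _ _ _
  let ιA : M →ₗ[A] P := { toFun := ι, map_add' := map_add ι, map_smul' := fun a t => ι.map_smulₛₗ a t }
  let φA : M →ₗ[A] P' :=
    { toFun := φ, map_add' := map_add φ, map_smul' := fun a t => φ.map_smulₛₗ a t }
  have hu : ∀ (Q : Type u) [AddCommGroup Q] [Module A Q] [Module B Q] [IsScalarTower A B Q]
      (c : Submonoid.powers x), IsUnit (algebraMap A (Module.End A Q) c) := by
    intro Q _ _ _ _ c
    rw [Module.End.isUnit_iff]
    have hb := IsLocalization.map_units B c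
    refine ⟨fun a b hab => ?_, fun b => ⟨(↑hb.unit⁻¹ : B) • b, ?_⟩⟩
    · apply hb.smul_left_cancel.1
      simpa only [Module.algebraMap_end_apply, algebraMap_smul] using hab
    · rw [Module.algebraMap_end_apply, ← algebraMap_smul B c.1, smul_smul, IsUnit.mul_val_inv,
        one_smul]
  have : IsLocalizedModule (Submonoid.powers x) ιA :=
    IsLocalizedModule.Away.mk_of_addCommGroup (hu P ⟨x, Submonoid.mem_powers x⟩)
      (fun s => by
        obtain ⟨n, t, ht⟩ := hι.surj s
        refine ⟨n, t, ?_⟩
        change j.hom (x ^ n) • s = ι t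
        rw [map_pow]
        exact ht.symm)
      hι.exists_of_eq_zero
  refine ⟨(IsLocalizedModule.lift (.powers x) ιA φA (hu P')).extendScalarsOfIsLocalization
    (.powers x) B, fun t => ?_⟩
  change IsLocalizedModule.lift (.powers x) ιA φA (hu P') (ιA t) = φA t
  exact IsLocalizedModule.lift_apply ..

end

open PrimeSpectrum in
lemma image_top_eq_basicOpen (j : A ⟶ B) (x : A)
    (hB : @IsLocalization.Away A _ x B _ j.hom.toAlgebra) [IsOpenImmersion (Spec.map j)] :
    Spec.map j ''ᵁ ⊤ = (basicOpen x : (Spec A).Opens) := by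
  let := j.hom.toAlgebra
  have : Set.range (Spec.map j) = ((basicOpen x : TopologicalSpace.Opens (PrimeSpectrum A)) :
      Set (PrimeSpectrum A)) := PrimeSpectrum.localization_away_comap_range B x
  rw [Scheme.Hom.image_top_eq_opensRange]
  exact TopologicalSpace.Opens.ext this

/-- Restriction of the global sections to a principal chart. -/
noncomputable def topRes (j : A ⟶ B) [IsOpenImmersion (Spec.map j)] (N : (Spec A).Modules) :
    Γ(N, ⊤) →ₛₗ[j.hom] chartSec (Spec.map j) N where
  toFun s := (N.restrictAppIso (Spec.map j) ⊤).inv (rs N le_top s)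
  map_add' s t := by simp only [map_add]
  map_smul' a s := by
    apply (ConcreteCategory.bijective_of_isIso (N.restrictAppIso (Spec.map j) ⊤).hom).1
    rw [Scheme.Modules.restrictAppIso_smul_Spec]
    simp only [Iso.inv_hom_id_apply]
    exact N.map_smul_Spec (homOfLE le_top).op a s

/-- Restriction to a principal chart is a localization. -/
theorem isLocMap_topRes (j : A ⟶ B) (x : A)
    (hB : @IsLocalization.Away A _ x B _ j.hom.toAlgebra) [IsOpenImmersion (Spec.map j)]
    (N : (Spec A).Modules) [IsIso N.fromTildeΓ] : IsLocMap j x (topRes j N) := by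
  have hr := image_top_eq_basicOpen j x hB
  refine ⟨fun s => ?_, fun t ht => ?_⟩
  · obtain ⟨n, t, ht⟩ :=
      exists_pow_smul_eq_map x (rs N hr.ge ((N.restrictAppIso (Spec.map j) ⊤).hom s))
    refine ⟨n, t, ?_⟩
    apply (ConcreteCategory.bijective_of_isIso (N.restrictAppIso (Spec.map j) ⊤).hom).1
    rw [← map_pow, Scheme.Modules.restrictAppIso_smul_Spec]
    change (N.restrictAppIso (Spec.map j) ⊤).hom
      ((N.restrictAppIso (Spec.map j) ⊤).inv (rs N le_top t)) = _
    rw [Iso.inv_hom_id_apply]
    have h2 := congrArg (rs N hr.le) ht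
    rw [show rs N hr.le (x ^ n • rs N hr.ge ((N.restrictAppIso (Spec.map j) ⊤).hom s)) =
      x ^ n • rs N hr.le (rs N hr.ge ((N.restrictAppIso (Spec.map j) ⊤).hom s)) from
        N.map_smul_Spec (homOfLE hr.le).op _ _, rs_rs, rs_self] at h2
    exact (rs_rs le_top hr.le t).symm.trans h2
  · refine exists_pow_smul_eq_zero x t ?_
    have h := congrArg (rs N hr.ge) (congrArg (N.restrictAppIso (Spec.map j) ⊤).hom ht)
    change rs N hr.ge ((N.restrictAppIso (Spec.map j) ⊤).hom
      ((N.restrictAppIso (Spec.map j) ⊤).inv (rs N le_top t))) = _ at h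
    rw [Iso.inv_hom_id_apply, rs_rs, map_zero, map_zero] at h
    exact h

/-- The restriction between charts is a localization. -/
theorem isLocMap_chartRes {X : Scheme.{u}} (p : Spec A ⟶ X) [IsOpenImmersion p] (q : Spec B ⟶ X)
    [IsOpenImmersion q] (j : A ⟶ B) (hq : Spec.map j ≫ p = q) (x : A)
    (hB : @IsLocalization.Away A _ x B _ j.hom.toAlgebra) (F : X.Modules)
    [IsIso (F.restrict p).fromTildeΓ] : IsLocMap j x (chartRes p q j hq F) :=
  ⟨(isLocalizedModule_chartRes p q j hq x hB).1, (isLocalizedModule_chartRes p q j hq x hB).2⟩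

end FermatLib.AV.SheafBridge
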