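import Fermat.Agent.AV.Jac.Bridge.Cover
import Fermat.Agent.AV.Jac.Bridge.Local

/-!
Gluing two modules along a common localization into a sheaf of modules.
-/

set_option autoImplicit false
set_option backward.isDefEq.respectTransparency false

universe u

open CategoryTheory CategoryTheory.Limits AlgebraicGeometry TopologicalSpace Opposite

namespace FermatLib.AV.SheafBridge

/-- A module on the base glued to a module over a localization. -/
theorem exists_tilde_iso {A B : CommRingCat.{u}} (j : A ⟶ B) (x : A)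
    (hB : @IsLocalization.Away A _ x B _ j.hom.toAlgebra) [IsOpenImmersion (Spec.map j)]
    (M : ModuleCat.{u} A) (P : ModuleCat.{u} B) (ι : M →ₛₗ[j.hom] P) (hι : IsLocMap j x ι) :
    ∃ g : (tilde M).restrict (Spec.map j) ⟶ tilde P, IsIso g ∧
      ∀ m, g.app ⊤ (topRes j (tilde M) (topEquiv M m)) = topEquiv P (ι m) := by
  have hx : IsUnit (j x) := by
    let := j.hom.toAlgebra
    exact IsLocalization.Away.algebraMap_isUnit (S := B) x
  have h1 := isLocMap_topRes j x hB (tilde M)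
  obtain ⟨f, hf⟩ := h1.exists_lift hB
    ((topEquiv P).toLinearMap.comp (ι.comp (topEquiv M).symm.toLinearMap))
  obtain ⟨g, hg⟩ := exists_hom_of_top (N := (tilde M).restrict (Spec.map j)) (N' := tilde P) f
  refine ⟨g, isIso_of_bijective_top g ?_, fun m => ?_⟩
  · have h := h1.bijective hι hx (f := (topEquiv M).symm.toLinearMap) (topEquiv M).symm.bijective
      (g := (topEquiv P).symm.toLinearMap.comp f) (fun t => by simp [hf])
    have hb : Function.Bijective f := ((topEquiv P).symm.bijective.of_comp_iff' f).1 h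
    have he : (g.app ⊤ : Γ((tilde M).restrict (Spec.map j), ⊤) → Γ(tilde P, ⊤)) = f := funext hg
    rw [he]
    exact hb
  · rw [hg, hf]
    simp

namespace TwoCover

variable {X : Scheme.{u}} (T : TwoCover X)

lemma preimage_le1 (W : (Spec T.A0).Opens) :
    T.p1 ⁻¹ᵁ T.p0 ''ᵁ W ≤ (Spec.map T.j1).opensRange := by
  rintro z ⟨w, -, hw⟩
  obtain ⟨v, hv⟩ := T.inter ⟨⟨w, hw⟩, ⟨z, rfl⟩⟩
  refine ⟨v, T.p1.isOpenEmbedding.injective ?_⟩
  rw [← hv, ← T.hq1]
  rfl

lemma preimage_le0 (W : (Spec T.A1).Opens) :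
    T.p0 ⁻¹ᵁ T.p1 ''ᵁ W ≤ (Spec.map T.j0).opensRange := by
  rintro z ⟨w, -, hw⟩
  obtain ⟨v, hv⟩ := T.inter ⟨⟨z, rfl⟩, ⟨w, hw⟩⟩
  refine ⟨v, T.p0.isOpenEmbedding.injective ?_⟩
  rw [← hv, ← T.hq0]
  rfl

/-- The push forward of the transpose of a morphism from a restriction. -/
noncomputable def pushHom {A B : CommRingCat.{u}} (j : A ⟶ B) (p : Spec A ⟶ X) (q : Spec B ⟶ X)
    [IsOpenImmersion (Spec.map j)] (hq : Spec.map j ≫ p = q) {N : (Spec A).Modules}
    {N' : (Spec B).Modules} (g : N.restrict (Spec.map j) ⟶ N') :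
    (Scheme.Modules.pushforward p).obj N ⟶ (Scheme.Modules.pushforward q).obj N' :=
  (Scheme.Modules.pushforward p).map
      ((Scheme.Modules.restrictAdjunction (Spec.map j)).unit.app N ≫
        (Scheme.Modules.pushforward (Spec.map j)).map g) ≫
    (Scheme.Modules.pushforwardComp (Spec.map j) p).hom.app N' ≫
    (Scheme.Modules.pushforwardCongr hq).hom.app N'

lemma pushHom_app {A B : CommRingCat.{u}} (j : A ⟶ B) (p : Spec A ⟶ X)
    (q : Spec B ⟶ X) [IsOpenImmersion (Spec.map j)] (hq : Spec.map j ≫ p = q)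
    {N : (Spec A).Modules} {N' : (Spec B).Modules} (g : N.restrict (Spec.map j) ⟶ N')
    (W : X.Opens) (s : Γ(N, p ⁻¹ᵁ W)) :
    (pushHom j p q hq g).app W s = N'.presheaf.map (eqToHom (show q ⁻¹ᵁ W =
        Spec.map j ⁻¹ᵁ p ⁻¹ᵁ W by subst hq; rfl)).op
      (g.app _ (rs N ((Spec.map j).image_preimage_le (p ⁻¹ᵁ W)) s)) := rfl

lemma bijective_pushHom_app {A B : CommRingCat.{u}} (j : A ⟶ B) (p : Spec A ⟶ X)
    (q : Spec B ⟶ X) [IsOpenImmersion (Spec.map j)] (hq : Spec.map j ≫ p = q)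
    {N : (Spec A).Modules} {N' : (Spec B).Modules} (g : N.restrict (Spec.map j) ⟶ N') [IsIso g]
    (W : X.Opens) (hW : p ⁻¹ᵁ W ≤ (Spec.map j).opensRange) :
    Function.Bijective ((pushHom j p q hq g).app W) := by
  have e := image_preimage_eq (Spec.map j) hW
  have hb : Function.Bijective (rs N ((Spec.map j).image_preimage_le (p ⁻¹ᵁ W))) := by
    refine ⟨fun a b hab => ?_, fun b => ⟨rs N e.ge b, ?_⟩⟩
    · simpa using congrArg (rs N e.ge) hab
    · simp
  exact (ConcreteCategory.bijective_of_isIso (N'.presheaf.map (eqToHom (show q ⁻¹ᵁ W =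
      Spec.map j ⁻¹ᵁ p ⁻¹ᵁ W by subst hq; rfl)).op)).comp
    ((ConcreteCategory.bijective_of_isIso (g.app (Spec.map j ⁻¹ᵁ p ⁻¹ᵁ W))).comp hb)

lemma pushHom_app_top {A B : CommRingCat.{u}} (j : A ⟶ B) (p : Spec A ⟶ X) [IsOpenImmersion p]
    (q : Spec B ⟶ X) [IsOpenImmersion q] [IsOpenImmersion (Spec.map j)] (hq : Spec.map j ≫ p = q)
    {N : (Spec A).Modules} {N' : (Spec B).Modules} (g : N.restrict (Spec.map j) ⟶ N')
    (t : chartSec p ((Scheme.Modules.pushforward p).obj N)) :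
    ((Scheme.Modules.restrictAdjunction q).counit.app N').app ⊤
      (chartApp q (pushHom j p q hq g) (chartRes p q j hq _ t)) =
    g.app ⊤ (topRes j N (((Scheme.Modules.restrictAdjunction p).counit.app N).app ⊤ t)) := by
  let W := q ''ᵁ (⊤ : (Spec B).Opens)
  let s : Γ(N, p ⁻¹ᵁ p ''ᵁ ⊤) := t
  have hV : (⊤ : (Spec B).Opens) ≤ Spec.map j ⁻¹ᵁ p ⁻¹ᵁ W := by
    subst hq
    intro z _
    exact ⟨z, trivial, rfl⟩
  have hs : rs N (p.preimage_mono (image_top_le p q j hq)) s =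
      (chartRes p q j hq ((Scheme.Modules.pushforward p).obj N) t :
        Γ(N, p ⁻¹ᵁ W)) := rfl
  change rs N' (q.preimage_image_eq ⊤).ge ((pushHom j p q hq g).app W
    (rs N (p.preimage_mono (image_top_le p q j hq)) s)) =
    g.app ⊤ (rs N le_top (rs N (p.preimage_image_eq ⊤).ge s))
  rw [pushHom_app, rs_rs, rs_rs]
  change rs N' (q.preimage_image_eq ⊤).ge (rs N' _ (g.app _ (rs N _ s))) = _
  rw [rs_rs, ← hom_app_rs g hV]
  · exact congrArg (g.app ⊤) (rs_rs (F := N) _ ((Spec.map j).image_mono hV) s)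

/-- Two modules with a common localization glue to a sheaf. -/
theorem exists_glued (M0 : ModuleCat.{u} T.A0) (M1 : ModuleCat.{u} T.A1)
    (M01 : ModuleCat.{u} T.A01) (ι0 : M0 →ₛₗ[T.j0.hom] M01) (ι1 : M1 →ₛₗ[T.j1.hom] M01)
    (h0 : IsLocMap T.j0 T.x0 ι0) (h1 : IsLocMap T.j1 T.x1 ι1) :
    ∃ (F : X.Modules) (_ : T.IsQC F) (e0 : chartSec T.p0 F ≃ₗ[T.A0] M0)
      (e1 : chartSec T.p1 F ≃ₗ[T.A1] M1) (e01 : chartSec T.q F ≃ₗ[T.A01] M01),
      (∀ t, e01 (T.res0 F t) = ι0 (e0 t)) ∧ ∀ t, e01 (T.res1 F t) = ι1 (e1 t) := by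
  obtain ⟨g0, _, hg0⟩ := exists_tilde_iso T.j0 T.x0 T.loc0 M0 M01 ι0 h0
  obtain ⟨g1, _, hg1⟩ := exists_tilde_iso T.j1 T.x1 T.loc1 M1 M01 ι1 h1
  let a0 := pushHom T.j0 T.p0 T.q T.hq0 g0
  let a1 := pushHom T.j1 T.p1 T.q T.hq1 g1
  let F := pullback a0 a1
  have hpb : ∀ W : X.Opens, IsPullback ((pullback.fst a0 a1).app W) ((pullback.snd a0 a1).app W)
      (a0.app W) (a1.app W) := fun W =>
    ((IsPullback.of_hasPullback a0 a1).map (Scheme.Modules.toPresheaf X)).map
      ((evaluation _ _).obj (op W))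
  have hfst : IsIso ((Scheme.Modules.restrictFunctor T.p0).map (pullback.fst a0 a1)) := by
    rw [Scheme.Modules.Hom.isIso_iff_isIso_app]
    intro W
    have : IsIso (a1.app (T.p0 ''ᵁ W)) := by
      rw [ConcreteCategory.isIso_iff_bijective]
      exact bijective_pushHom_app T.j1 T.p1 T.q T.hq1 g1 _ (T.preimage_le1 W)
    exact (hpb (T.p0 ''ᵁ W)).isIso_fst_of_isIso
  have hsnd : IsIso ((Scheme.Modules.restrictFunctor T.p1).map (pullback.snd a0 a1)) := by
    rw [Scheme.Modules.Hom.isIso_iff_isIso_app]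
    intro W
    have : IsIso (a0.app (T.p1 ''ᵁ W)) := by
      rw [ConcreteCategory.isIso_iff_bijective]
      exact bijective_pushHom_app T.j0 T.p0 T.q T.hq0 g0 _ (T.preimage_le0 W)
    exact (hpb (T.p1 ''ᵁ W)).isIso_snd_of_isIso
  let i0 : F.restrict T.p0 ≅ tilde M0 :=
    @asIso _ _ _ _ _ hfst ≪≫ (asIso (Scheme.Modules.restrictAdjunction T.p0).counit).app _
  let i1 : F.restrict T.p1 ≅ tilde M1 :=
    @asIso _ _ _ _ _ hsnd ≪≫ (asIso (Scheme.Modules.restrictAdjunction T.p1).counit).app _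
  have hF : T.IsQC F :=
    ⟨isIso_fromTildeΓ_of_iso i0.symm, isIso_fromTildeΓ_of_iso i1.symm⟩
  let iq : F.restrict T.q ⟶ tilde M01 :=
    (Scheme.Modules.restrictFunctor T.q).map (pullback.fst a0 a1 ≫ a0) ≫
      (Scheme.Modules.restrictAdjunction T.q).counit.app _
  let e0 : chartSec T.p0 F ≃ₗ[T.A0] M0 :=
    (LinearEquiv.ofBijective (chartMap i0.hom) (ConcreteCategory.bijective_of_isIso
      (i0.hom.app ⊤))).trans (topEquiv M0).symm
  let e1 : chartSec T.p1 F ≃ₗ[T.A1] M1 :=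
    (LinearEquiv.ofBijective (chartMap i1.hom) (ConcreteCategory.bijective_of_isIso
      (i1.hom.app ⊤))).trans (topEquiv M1).symm
  let f01 : chartSec T.q F →ₗ[T.A01] M01 := (topEquiv M01).symm.toLinearMap.comp (chartMap iq)
  have c0 : ∀ t, f01 (T.res0 F t) = ι0 (e0 t) := by
    intro t
    apply (topEquiv M01).injective
    change topEquiv M01 ((topEquiv M01).symm (iq.app ⊤ (T.res0 F t))) = _
    rw [LinearEquiv.apply_symm_apply, ← hg0,
      show topEquiv M0 (e0 t) = i0.hom.app ⊤ t from (topEquiv M0).apply_symm_apply _]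
    change ((Scheme.Modules.restrictAdjunction T.q).counit.app _).app ⊤
      (chartApp T.q (pullback.fst a0 a1 ≫ a0) (T.res0 F t)) = _
    rw [chartApp_comp, ← chartRes_chartApp]
    exact pushHom_app_top T.j0 T.p0 T.q T.hq0 g0 _
  have c1 : ∀ t, f01 (T.res1 F t) = ι1 (e1 t) := by
    intro t
    apply (topEquiv M01).injective
    change topEquiv M01 ((topEquiv M01).symm (iq.app ⊤ (T.res1 F t))) = _
    rw [LinearEquiv.apply_symm_apply, ← hg1,
      show topEquiv M1 (e1 t) = i1.hom.app ⊤ t from (topEquiv M1).apply_symm_apply _]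
    change ((Scheme.Modules.restrictAdjunction T.q).counit.app _).app ⊤
      (chartApp T.q (pullback.fst a0 a1 ≫ a0) (T.res1 F t)) = _
    rw [pullback.condition, chartApp_comp, ← chartRes_chartApp]
    exact pushHom_app_top T.j1 T.p1 T.q T.hq1 g1 _
  have hx : IsUnit (T.j0 T.x0) := by
    let := T.j0.hom.toAlgebra
    have := T.loc0
    exact IsLocalization.Away.algebraMap_isUnit (S := T.A01) T.x0
  exact ⟨F, hF, e0, e1, LinearEquiv.ofBijective f01
    ((isLocMap_chartRes T.p0 T.q T.j0 T.hq0 T.x0 T.loc0 F).bijective h0 hx e0.bijective c0),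
    c0, c1⟩

end TwoCover

end FermatLib.AV.SheafBridge
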