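import Fermat.Agent.AV.Jac.Bridge.Affine

/-!
Sheaves of modules on a scheme covered by two affine charts with affine overlap.
-/

set_option autoImplicit false
set_option backward.isDefEq.respectTransparency false

universe u

open CategoryTheory CategoryTheory.Limits AlgebraicGeometry TopologicalSpace Opposite

namespace FermatLib.AV.SheafBridge

/-- A scheme covered by two affine charts whose intersection is principal in each of them. -/
structure TwoCover (X : Scheme.{u}) : Type (u + 1) where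
  A0 : CommRingCat.{u}
  A1 : CommRingCat.{u}
  A01 : CommRingCat.{u}
  j0 : A0 ⟶ A01
  j1 : A1 ⟶ A01
  x0 : A0
  x1 : A1
  loc0 : @IsLocalization.Away A0 _ x0 A01 _ j0.hom.toAlgebra
  loc1 : @IsLocalization.Away A1 _ x1 A01 _ j1.hom.toAlgebra
  p0 : Spec A0 ⟶ X
  p1 : Spec A1 ⟶ X
  q : Spec A01 ⟶ X
  [open0 : IsOpenImmersion p0]
  [open1 : IsOpenImmersion p1]
  [open01 : IsOpenImmersion q]
  hq0 : Spec.map j0 ≫ p0 = q
  hq1 : Spec.map j1 ≫ p1 = q
  cover : p0.opensRange ⊔ p1.opensRange = ⊤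
  inter : p0.opensRange ⊓ p1.opensRange ≤ q.opensRange

attribute [instance] TwoCover.open0 TwoCover.open1 TwoCover.open01

namespace TwoCover

variable {X : Scheme.{u}} (T : TwoCover X) {F G : X.Modules}

instance open_map0 : IsOpenImmersion (Spec.map T.j0) :=
  letI := T.j0.hom.toAlgebra
  haveI := T.loc0
  IsOpenImmersion.of_isLocalization T.x0

instance open_map1 : IsOpenImmersion (Spec.map T.j1) :=
  letI := T.j1.hom.toAlgebra
  haveI := T.loc1
  IsOpenImmersion.of_isLocalization T.x1

/-- Restriction from the first chart to the overlap. -/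
noncomputable abbrev res0 (F : X.Modules) : chartSec T.p0 F →ₛₗ[T.j0.hom] chartSec T.q F :=
  chartRes T.p0 T.q T.j0 T.hq0 F

/-- Restriction from the second chart to the overlap. -/
noncomputable abbrev res1 (F : X.Modules) : chartSec T.p1 F →ₛₗ[T.j1.hom] chartSec T.q F :=
  chartRes T.p1 T.q T.j1 T.hq1 F

/-- A module which is quasicoherent on both charts. -/
class IsQC (F : X.Modules) : Prop where
  iso0 : IsIso (F.restrict T.p0).fromTildeΓ
  iso1 : IsIso (F.restrict T.p1).fromTildeΓ

theorem isQC_of_isInvertible (hF : Scheme.Modules.IsInvertible F) : T.IsQC F :=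
  ⟨isIso_fromTildeΓ_of_isInvertible T.p0 hF, isIso_fromTildeΓ_of_isInvertible T.p1 hF⟩

variable [T.IsQC F]

instance isIso0 : IsIso (F.restrict T.p0).fromTildeΓ := IsQC.iso0
instance isIso1 : IsIso (F.restrict T.p1).fromTildeΓ := IsQC.iso1
instance isIso01 : IsIso (F.restrict T.q).fromTildeΓ :=
  isIso_fromTildeΓ_restrict T.p0 T.q T.j0 T.hq0

/-- Linear maps on the overlap agree if they agree on the restrictions from the first chart. -/
theorem linearMap_ext0 {N : Type u} [AddCommGroup N] [Module T.A01 N]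
    {f g : chartSec T.q F →ₗ[T.A01] N} (h : ∀ t, f (T.res0 F t) = g (T.res0 F t)) : f = g := by
  refine LinearMap.ext fun s => ?_
  obtain ⟨n, t, ht⟩ := (isLocalizedModule_chartRes T.p0 T.q T.j0 T.hq0 T.x0 T.loc0 (F := F)).1 s
  have hu : IsUnit (T.j0 T.x0 ^ n) := by
    let := T.j0.hom.toAlgebra
    have := T.loc0
    exact (IsLocalization.Away.algebraMap_isUnit (S := T.A01) T.x0).pow n
  have := h t
  rw [show T.res0 F t = T.j0 T.x0 ^ n • s from ht, map_smul, map_smul] at this
  exact hu.smul_left_cancel.1 this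

/-- Morphisms out of a quasicoherent module are determined by the sections on the two charts. -/
theorem hom_ext {θ θ' : F ⟶ G} (h0 : ∀ s, chartApp T.p0 θ s = chartApp T.p0 θ' s)
    (h1 : ∀ s, chartApp T.p1 θ s = chartApp T.p1 θ' s) : θ = θ' :=
  hom_eq_of_cover T.p0 T.p1 T.cover (hom_ext_top h0) (hom_ext_top h1)

lemma localHom_on_top {Y : Scheme.{u}} {B : CommRingCat.{u}} {F G : Y.Modules}
    (p : Spec B ⟶ Y) [IsOpenImmersion p]
    (θ : F.restrict p ⟶ G.restrict p) (s : chartSec p F) :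
    (G.restrictAppIso p ⊤).inv
      ((LocalHom.ofRestrict p θ).on (p ''ᵁ ⊤) (p.image_le_opensRange ⊤)
        ((F.restrictAppIso p ⊤).hom s)) = θ.app ⊤ s := by
  rw [LocalHom.ofRestrict_on_image]
  rfl

/-- Compatible linear maps on the sections over the charts come from a morphism. -/
theorem exists_hom (f0 : chartSec T.p0 F →ₗ[T.A0] chartSec T.p0 G)
    (f1 : chartSec T.p1 F →ₗ[T.A1] chartSec T.p1 G)
    (f01 : chartSec T.q F →ₗ[T.A01] chartSec T.q G)
    (h0 : ∀ s, T.res0 G (f0 s) = f01 (T.res0 F s))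
    (h1 : ∀ s, T.res1 G (f1 s) = f01 (T.res1 F s)) :
    ∃ θ : F ⟶ G, (∀ s, chartApp T.p0 θ s = f0 s) ∧ (∀ s, chartApp T.p1 θ s = f1 s) ∧
      ∀ s, chartApp T.q θ s = f01 s := by
  obtain ⟨θ0, hθ0⟩ := exists_hom_of_top f0
  obtain ⟨θ1, hθ1⟩ := exists_hom_of_top f1
  obtain ⟨θq, hθq⟩ := exists_hom_of_top f01
  have hle0 : T.q.opensRange ≤ T.p0.opensRange := by
    simpa [Scheme.Hom.image_top_eq_opensRange] using image_top_le T.p0 T.q T.j0 T.hq0
  have hle1 : T.q.opensRange ≤ T.p1.opensRange := by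
    simpa [Scheme.Hom.image_top_eq_opensRange] using image_top_le T.p1 T.q T.j1 T.hq1
  let φ0 := LocalHom.ofRestrict T.p0 θ0
  let φ1 := LocalHom.ofRestrict T.p1 θ1
  have key : ∀ {B : CommRingCat.{u}} (p : Spec B ⟶ X) [IsOpenImmersion p] (j : B ⟶ T.A01)
      (hq : Spec.map j ≫ p = T.q) (θ : F.restrict p ⟶ G.restrict p)
      (hle : T.q.opensRange ≤ p.opensRange) (f : chartSec p F →ₗ[B] chartSec p G),
      (∀ s, θ.app ⊤ s = f s) → ∀ t,
      ((LocalHom.ofRestrict p θ).toRestrict T.q hle).app ⊤ (chartRes p T.q j hq F t) =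
        chartRes p T.q j hq G (f t) := by
    intro B p _ j hq θ hle f hf t
    rw [LocalHom.toRestrict_app, chartRes_apply,
      LocalHom.natural _ (p ''ᵁ ⊤) _ (p.image_le_opensRange ⊤) (image_top_le p T.q j hq)]
    have := localHom_on_top p θ t
    rw [hf] at this
    apply (ConcreteCategory.bijective_of_isIso (G.restrictAppIso T.q ⊤).hom).1
    rw [chartRes_apply, ← this]
    simp
  have e0 : φ0.toRestrict T.q hle0 = θq := by
    refine hom_ext_top fun s => ?_
    refine LinearMap.congr_fun (f := chartMap (φ0.toRestrict T.q hle0)) (g := chartMap θq) ?_ s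
    refine T.linearMap_ext0 fun t => ?_
    rw [chartMap_apply, chartMap_apply, key T.p0 T.j0 T.hq0 θ0 hle0 f0 hθ0, hθq]
    exact h0 t
  have e1 : φ1.toRestrict T.q hle1 = θq := by
    refine hom_ext_top fun s => ?_
    obtain ⟨n, t, ht⟩ :=
      (isLocalizedModule_chartRes T.p1 T.q T.j1 T.hq1 T.x1 T.loc1 (F := F)).1 s
    have hu : IsUnit (T.j1 T.x1 ^ n) := by
      let := T.j1.hom.toAlgebra
      have := T.loc1
      exact (IsLocalization.Away.algebraMap_isUnit (S := T.A01) T.x1).pow n
    apply hu.smul_left_cancel.1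
    rw [← chartMap_apply, ← chartMap_apply, ← map_smul, ← map_smul, ← ht, chartMap_apply,
      chartMap_apply, key T.p1 T.j1 T.hq1 θ1 hle1 f1 hθ1, hθq]
    exact h1 t
  obtain ⟨θ, hθ, hθ'⟩ := exists_glue T.cover φ0 φ1 fun W w0 w1 s =>
    φ0.eq_of_toRestrict_eq T.q φ1 hle0 hle1 (e0.trans e1.symm) ((le_inf w0 w1).trans T.inter) s
  have top0 : ∀ s, chartApp T.p0 θ s = f0 s := fun s => by
    rw [← hθ0, ← localHom_on_top T.p0 θ0 s]
    exact congrArg (G.restrictAppIso T.p0 ⊤).inv (hθ _ (T.p0.image_le_opensRange ⊤) _)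
  refine ⟨θ, top0, fun s => ?_, fun s => ?_⟩
  · rw [← hθ1, ← localHom_on_top T.p1 θ1 s]
    exact congrArg (G.restrictAppIso T.p1 ⊤).inv (hθ' _ (T.p1.image_le_opensRange ⊤) _)
  · refine LinearMap.congr_fun (T.linearMap_ext0 (f := chartApp T.q θ) fun t => ?_) s
    rw [← chartRes_chartApp, top0, h0]

/-- A morphism bijective on the sections over both charts is an isomorphism. -/
theorem isIso_of_bijective [T.IsQC G] (θ : F ⟶ G)
    (h0 : Function.Bijective (chartApp T.p0 θ)) (h1 : Function.Bijective (chartApp T.p1 θ)) :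
    IsIso θ := by
  let e0 := LinearEquiv.ofBijective (chartApp T.p0 θ) h0
  let e1 := LinearEquiv.ofBijective (chartApp T.p1 θ) h1
  have h01 : Function.Bijective (chartApp T.q θ) := by
    have hu : ∀ n, IsUnit (T.j0 T.x0 ^ n) := fun n => by
      let := T.j0.hom.toAlgebra
      have := T.loc0
      exact (IsLocalization.Away.algebraMap_isUnit (S := T.A01) T.x0).pow n
    refine ⟨(injective_iff_map_eq_zero _).2 fun s hs => ?_, fun s => ?_⟩
    · obtain ⟨n, t, ht⟩ := (isLocalizedModule_chartRes T.p0 T.q T.j0 T.hq0 T.x0 T.loc0 (F := F)).1 s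
      have h : T.res0 G (chartApp T.p0 θ t) = 0 := by
        rw [chartRes_chartApp, ht, map_smul, hs, smul_zero]
      obtain ⟨m, hm⟩ := (isLocalizedModule_chartRes T.p0 T.q T.j0 T.hq0 T.x0 T.loc0 (F := G)).2 _ h
      rw [← map_smul] at hm
      have hm' := congrArg (T.res0 F) ((injective_iff_map_eq_zero _).1 h0.1 _ hm)
      rw [map_smulₛₗ, map_zero, ht, map_pow, smul_smul] at hm'
      exact ((hu m).mul (hu n)).smul_left_cancel.1 (hm'.trans (smul_zero _).symm)
    · obtain ⟨n, t, ht⟩ := (isLocalizedModule_chartRes T.p0 T.q T.j0 T.hq0 T.x0 T.loc0 (F := G)).1 s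
      refine ⟨((hu n).unit⁻¹ : T.A01ˣ).val • T.res0 F (e0.symm t), ?_⟩
      rw [map_smul, ← chartRes_chartApp,
        show chartApp T.p0 θ (e0.symm t) = t from e0.apply_symm_apply t, ht, smul_smul,
        IsUnit.val_inv_mul, one_smul]
  let e01 := LinearEquiv.ofBijective (chartApp T.q θ) h01
  obtain ⟨θ', g0, g1, -⟩ := T.exists_hom (F := G) (G := F) e0.symm.toLinearMap
    e1.symm.toLinearMap e01.symm.toLinearMap
    (fun s => e01.injective (by
      change chartApp T.q θ _ = chartApp T.q θ (e01.symm _)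
      rw [← chartRes_chartApp]
      exact (congrArg _ (e0.apply_symm_apply s)).trans (e01.apply_symm_apply _).symm))
    (fun s => e01.injective (by
      change chartApp T.q θ _ = chartApp T.q θ (e01.symm _)
      rw [← chartRes_chartApp]
      exact (congrArg _ (e1.apply_symm_apply s)).trans (e01.apply_symm_apply _).symm))
  refine ⟨θ', T.hom_ext (fun s => ?_) (fun s => ?_), T.hom_ext (fun s => ?_) (fun s => ?_)⟩
  · rw [chartApp_comp, g0, chartApp_id]; exact e0.symm_apply_apply s
  · rw [chartApp_comp, g1, chartApp_id]; exact e1.symm_apply_apply s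
  · rw [chartApp_comp, g0, chartApp_id]; exact e0.apply_symm_apply s
  · rw [chartApp_comp, g1, chartApp_id]; exact e1.apply_symm_apply s

end TwoCover

end FermatLib.AV.SheafBridge
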