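import Fermat.Agent.AV.Jac.Bridge.Construct
import Fermat.Agent.AV.Jac.CurveCharts
import Fermat.Agent.AV.Jac.Core.Basic

/-!
The two charts of the base change of a curve.
-/

set_option autoImplicit false

universe u

open CategoryTheory CategoryTheory.Limits AlgebraicGeometry NeronModelInfra
open scoped TensorProduct

namespace FermatLib.AV

/-- The structure map of an affine `k`-scheme. -/
noncomputable abbrev specStr (k R : Type u) [Field k] [CommRing R] [Algebra k R] :
    Spec (CommRingCat.of R) ⟶ Spec (CommRingCat.of k) :=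
  Spec.map (CommRingCat.ofHom (algebraMap k R))

/-- A map of affine `k`-schemes. -/
noncomputable def specHom {k R S : Type u} [Field k] [CommRing R] [Algebra k R] [CommRing S]
    [Algebra k S] (φ : R →ₐ[k] S) : SchemeHomOver (specStr k S) (specStr k R) :=
  ⟨Spec.map (CommRingCat.ofHom φ.toRingHom), by
    rw [specStr, ← Spec.map_comp, ← CommRingCat.ofHom_comp, AlgHom.toRingHom_eq_coe,
      AlgHom.comp_algebraMap]⟩

namespace SheafBridge

variable {k : Type u} [Field k] {C : Scheme.{u}} {c : C ⟶ Spec (CommRingCat.of k)}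
  (R : Type u) [CommRing R] [Algebra k R] {A : Type u} [CommRing A] [Algebra k A]
  (i : Spec (CommRingCat.of A) ⟶ C) (hi : i ≫ c = Spec.map (CommRingCat.ofHom (algebraMap k A)))

/-- The base change of a chart. -/
noncomputable def baseChart : Spec (CommRingCat.of (R ⊗[k] A)) ⟶ pullback c (specStr k R) :=
  pullback.lift
    (Spec.map (CommRingCat.ofHom
      (Algebra.TensorProduct.includeRight : A →ₐ[k] R ⊗[k] A).toRingHom) ≫ i)
    (Spec.map (CommRingCat.ofHom (Algebra.TensorProduct.includeLeftRingHom : R →+* R ⊗[k] A))) (by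
      rw [Category.assoc, hi, ← Spec.map_comp, ← Spec.map_comp, ← CommRingCat.ofHom_comp,
        ← CommRingCat.ofHom_comp]
      congr 2
      ext a
      change (1 : R) ⊗ₜ[k] algebraMap k A a = algebraMap k R a ⊗ₜ[k] (1 : A)
      rw [Algebra.algebraMap_eq_smul_one, Algebra.algebraMap_eq_smul_one, TensorProduct.smul_tmul])

theorem isPullback_baseChart :
    IsPullback (baseChart R i hi)
      (Spec.map (CommRingCat.ofHom
        (Algebra.TensorProduct.includeRight : A →ₐ[k] R ⊗[k] A).toRingHom))
      (pullback.fst c (specStr k R)) i := by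
  have outer : IsPullback (baseChart R i hi ≫ pullback.snd c (specStr k R))
      (Spec.map (CommRingCat.ofHom
        (Algebra.TensorProduct.includeRight : A →ₐ[k] R ⊗[k] A).toRingHom))
      (specStr k R) (i ≫ c) := by
    rw [hi, baseChart, pullback.lift_snd]
    refine IsPullback.of_iso_pullback ⟨?_⟩ (pullbackSpecIso k R A).symm
      (pullbackSpecIso_inv_fst k R A) (pullbackSpecIso_inv_snd k R A)
    have h1 := pullbackSpecIso_inv_fst k R A
    have h2 := pullbackSpecIso_inv_snd k R A
    simp only [AlgHom.toRingHom_eq_coe] at h2 ⊢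
    rw [← h1, ← h2, Category.assoc, Category.assoc, pullback.condition]
  exact IsPullback.of_right outer (pullback.lift_fst _ _ _)
    (IsPullback.of_hasPullback c (specStr k R)).flip

instance isOpenImmersion_baseChart [IsOpenImmersion i] : IsOpenImmersion (baseChart R i hi) :=
  MorphismProperty.of_isPullback (isPullback_baseChart R i hi).flip ‹_›

theorem opensRange_baseChart [IsOpenImmersion i] :
    (baseChart R i hi).opensRange = pullback.fst c (specStr k R) ⁻¹ᵁ i.opensRange := by
  have h := isPullback_baseChart R i hi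
  ext x
  change x ∈ Set.range (baseChart R i hi) ↔ pullback.fst c (specStr k R) x ∈ Set.range i
  rw [← Set.mem_preimage, ← Scheme.Pullback.range_fst]
  conv_lhs => rw [← h.isoPullback_hom_fst]
  constructor
  · rintro ⟨z, rfl⟩
    exact ⟨h.isoPullback.hom z, rfl⟩
  · rintro ⟨z, rfl⟩
    exact ⟨h.isoPullback.inv z, by
      rw [← Scheme.Hom.comp_apply, ← Category.assoc, Iso.inv_hom_id, Category.id_comp]⟩

end SheafBridge

namespace CurveCharts

open SheafBridge

variable {k : Type u} [Field k] {C : Scheme.{u}} {c : C ⟶ Spec (CommRingCat.of k)}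
  {ε : SchemeHomOver (𝟙 (Spec (CommRingCat.of k))) c} (P : CurveCharts k c ε)
  (R : Type u) [CommRing R] [Algebra k R]

/-- The overlap of the two charts. -/
noncomputable def i01 : Spec (CommRingCat.of P.A01) ⟶ C :=
  Spec.map (CommRingCat.ofHom P.j0.toRingHom) ≫ P.i0

lemma i01_base : P.i01 ≫ c = Spec.map (CommRingCat.ofHom (algebraMap k P.A01)) := by
  rw [i01, Category.assoc, P.i0_base, ← Spec.map_comp, ← CommRingCat.ofHom_comp,
    AlgHom.toRingHom_eq_coe, AlgHom.comp_algebraMap]

instance : IsOpenImmersion P.i01 := by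
  let := P.j0.toRingHom.toAlgebra
  have := P.isLoc0
  have : IsOpenImmersion (Spec.map (CommRingCat.ofHom P.j0.toRingHom)) :=
    IsOpenImmersion.of_isLocalization P.x
  unfold i01
  infer_instance

lemma isLoc_R0 : @IsLocalization.Away (P.R0 R) _ (P.toChartData.xR R) (P.R01 R) _
    (P.r0 R).toRingHom.toAlgebra := by
  let := (P.r0 R).toRingHom.toAlgebra
  refine (isLocalization_iff _ _).mpr ⟨?_, ?_, ?_⟩
  · rintro ⟨_, n, rfl⟩
    change IsUnit (P.r0 R (P.toChartData.xR R ^ n))
    rw [map_pow]
    exact (IsUnit.of_mul_eq_one _ (P.toChartData.r0_x_mul_r1_y R)).pow n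
  · intro z
    obtain ⟨N, a, h⟩ := P.toChartData.exists_pow_mul_r0 R z
    refine ⟨⟨a, ⟨_, N, rfl⟩⟩, ?_⟩
    change z * P.r0 R (P.toChartData.xR R ^ N) = P.r0 R a
    rw [map_pow, mul_comm]
    exact h
  · intro a b h
    exact ⟨1, by rw [P.toChartData.r0_injective R h]⟩

lemma r1_injective : Function.Injective (P.r1 R) := by
  refine Module.Flat.lTensor_preserves_injective_linearMap (M := R) P.j1.toLinearMap ?_
  let := P.j1.toRingHom.toAlgebra
  have := P.isLoc1
  have hd := P.isDomain1 k
  have : IsDomain P.A1 :=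
    (Algebra.TensorProduct.lid k P.A1).symm.injective.isDomain
      (Algebra.TensorProduct.lid k P.A1).symm.toRingHom
  have hy : P.y ≠ 0 := by
    intro h
    have h1 := P.x_mul_y
    rw [h, map_zero, mul_zero] at h1
    have h2 : (1 : P.A0) = 0 := P.toChartData.j0_injective (by rw [map_one, map_zero]; exact h1.symm)
    simpa using congrArg P.ε0 h2
  exact IsLocalization.injective P.A01
    (M := Submonoid.powers P.y) (powers_le_nonZeroDivisors_of_noZeroDivisors hy)

lemma isLoc_R1 : @IsLocalization.Away (P.R1 R) _ (P.toChartData.yR R) (P.R01 R) _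
    (P.r1 R).toRingHom.toAlgebra := by
  let := (P.r1 R).toRingHom.toAlgebra
  refine (isLocalization_iff _ _).mpr ⟨?_, ?_, ?_⟩
  · rintro ⟨_, n, rfl⟩
    change IsUnit (P.r1 R (P.toChartData.yR R ^ n))
    rw [map_pow]
    exact (IsUnit.of_mul_eq_one _
      ((mul_comm _ _).trans (P.toChartData.r0_x_mul_r1_y R))).pow n
  · intro z
    obtain ⟨N, a, h⟩ := P.toChartData.exists_pow_mul_r1 R z
    refine ⟨⟨a, ⟨_, N, rfl⟩⟩, ?_⟩
    change z * P.r1 R (P.toChartData.yR R ^ N) = P.r1 R a
    rw [map_pow, mul_comm]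
    exact h
  · intro a b h
    exact ⟨1, by rw [P.r1_injective R h]⟩

lemma map_r_comp {A B : Type u} [CommRing A] [Algebra k A] [CommRing B] [Algebra k B]
    (j : A →ₐ[k] B) (i : Spec (CommRingCat.of A) ⟶ C)
    (hi : i ≫ c = Spec.map (CommRingCat.ofHom (algebraMap k A)))
    (i' : Spec (CommRingCat.of B) ⟶ C)
    (hi' : i' ≫ c = Spec.map (CommRingCat.ofHom (algebraMap k B)))
    (h : Spec.map (CommRingCat.ofHom j.toRingHom) ≫ i = i') :
    Spec.map (CommRingCat.ofHom
      (Algebra.TensorProduct.map (AlgHom.id R R) j).toRingHom) ≫ baseChart R i hi =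
      baseChart R i' hi' := by
  apply pullback.hom_ext
  · rw [baseChart, baseChart, Category.assoc, pullback.lift_fst, pullback.lift_fst, ← h,
      ← Category.assoc, ← Category.assoc, ← Spec.map_comp, ← Spec.map_comp,
      ← CommRingCat.ofHom_comp, ← CommRingCat.ofHom_comp]
    congr 3
  · rw [baseChart, baseChart, Category.assoc, pullback.lift_snd, pullback.lift_snd,
      ← Spec.map_comp, ← CommRingCat.ofHom_comp]
    congr 2
    ext r
    change Algebra.TensorProduct.map (AlgHom.id R R) j (r ⊗ₜ 1) = r ⊗ₜ 1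
    simp

/-- The two charts of the base change of the curve to an affine scheme. -/
noncomputable abbrev twoCover : TwoCover (pullback c (specStr k R)) where
  A0 := CommRingCat.of (P.R0 R)
  A1 := CommRingCat.of (P.R1 R)
  A01 := CommRingCat.of (P.R01 R)
  j0 := CommRingCat.ofHom (P.r0 R).toRingHom
  j1 := CommRingCat.ofHom (P.r1 R).toRingHom
  x0 := P.toChartData.xR R
  x1 := P.toChartData.yR R
  loc0 := P.isLoc_R0 R
  loc1 := P.isLoc_R1 R
  p0 := baseChart R P.i0 P.i0_base
  p1 := baseChart R P.i1 P.i1_base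
  q := baseChart R P.i01 P.i01_base
  open0 := isOpenImmersion_baseChart R P.i0 P.i0_base
  open1 := isOpenImmersion_baseChart R P.i1 P.i1_base
  open01 := isOpenImmersion_baseChart R P.i01 P.i01_base
  hq0 := map_r_comp R P.j0 P.i0 P.i0_base P.i01 P.i01_base rfl
  hq1 := map_r_comp R P.j1 P.i1 P.i1_base P.i01 P.i01_base P.overlap.w.symm
  cover := by
    rw [opensRange_baseChart, opensRange_baseChart, ← Scheme.Hom.preimage_sup, P.cover]
    rfl
  inter := by
    rw [opensRange_baseChart, opensRange_baseChart, opensRange_baseChart,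
      ← Scheme.Hom.preimage_inf]
    refine Scheme.Hom.preimage_mono _ ?_
    rintro z ⟨⟨a, rfl⟩, b, hb⟩
    obtain ⟨w, hw, -⟩ := Scheme.Pullback.exists_preimage_pullback (f := P.i0) (g := P.i1) a b
      hb.symm
    refine ⟨P.overlap.isoPullback.inv w, ?_⟩
    rw [i01, Scheme.Hom.comp_apply]
    refine congrArg P.i0 ?_
    rw [← hw]
    exact congrArg (fun f : pullback P.i0 P.i1 ⟶ _ => f w) P.overlap.isoPullback_inv_fst

end CurveCharts

end FermatLib.AV
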