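import Mathlib

/-!
Morphisms of sheaves of modules: restriction to an open immersion and gluing along two opens.
-/

set_option autoImplicit false

universe u

open CategoryTheory CategoryTheory.Limits AlgebraicGeometry TopologicalSpace Opposite

namespace FermatLib.AV.SheafBridge

variable {X : Scheme.{u}} {F G : X.Modules}

/-- Sections of a module restricted to a smaller open. -/
noncomputable def rs (F : X.Modules) {V W : X.Opens} (h : W ≤ V) : Γ(F, V) →+ Γ(F, W) :=
  (F.presheaf.map (homOfLE h).op).hom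

@[simp] lemma rs_rs {V W Z : X.Opens} (h : W ≤ V) (h' : Z ≤ W) (s : Γ(F, V)) :
    rs F h' (rs F h s) = rs F (h'.trans h) s := by
  unfold rs
  rw [← ConcreteCategory.comp_apply, ← Functor.map_comp]
  rfl

@[simp] lemma rs_self {V : X.Opens} (h : V ≤ V) (s : Γ(F, V)) : rs F h s = s := by
  unfold rs
  rw [show (homOfLE h).op = 𝟙 (op V) from rfl, CategoryTheory.Functor.map_id]
  rfl

lemma rs_smul {V W : X.Opens} (h : W ≤ V) (r : Γ(X, V)) (s : Γ(F, V)) :
    rs F h (r • s) = X.presheaf.map (homOfLE h).op r • rs F h s :=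
  F.map_smul (homOfLE h) r s

lemma hom_app_rs (θ : F ⟶ G) {V W : X.Opens} (h : W ≤ V) (s : Γ(F, V)) :
    θ.app W (rs F h s) = rs G h (θ.app V s) :=
  CategoryTheory.congr_fun (θ.mapPresheaf.naturality (homOfLE h).op) s

lemma rs_eq₂ {V U₀ U₁ : X.Opens} (hV : V ≤ U₀ ⊔ U₁) {s t : Γ(F, V)}
    (h₀ : rs F inf_le_left s = rs F (inf_le_left : V ⊓ U₀ ≤ V) t)
    (h₁ : rs F inf_le_left s = rs F (inf_le_left : V ⊓ U₁ ≤ V) t) : s = t :=
  TopCat.Sheaf.eq_of_locally_eq₂ ⟨_, F.isSheaf⟩ (homOfLE inf_le_left) (homOfLE inf_le_left)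
    (by rw [← inf_sup_left]; exact le_inf le_rfl hV) s t h₀ h₁

/-- A compatible family of linear maps on the sections over the opens inside `U`. -/
structure LocalHom (U : X.Opens) (F G : X.Modules) where
  on : ∀ W : X.Opens, W ≤ U → (Γ(F, W) →+ Γ(G, W))
  on_smul : ∀ (W : X.Opens) (hW : W ≤ U) (r : Γ(X, W)) (s : Γ(F, W)),
    on W hW (r • s) = r • on W hW s
  natural : ∀ (V W : X.Opens) (hV : V ≤ U) (h : W ≤ V) (s : Γ(F, V)),
    on W (h.trans hV) (rs F h s) = rs G h (on V hV s)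

variable {Y : Scheme.{u}} (p : Y ⟶ X) [IsOpenImmersion p]

lemma image_preimage_eq {W : X.Opens} (hW : W ≤ p.opensRange) : p ''ᵁ p ⁻¹ᵁ W = W := by
  rw [p.image_preimage_eq_opensRange_inf, inf_eq_right]
  exact hW

/-- The local homomorphism given by a morphism of restrictions. -/
noncomputable def LocalHom.ofRestrict (θ : F.restrict p ⟶ G.restrict p) :
    LocalHom p.opensRange F G where
  on W hW := (rs G (image_preimage_eq p hW).ge).comp
    (((F.restrictAppIso p _).inv ≫ θ.app (p ⁻¹ᵁ W) ≫ (G.restrictAppIso p _).hom).hom.comp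
      (rs F (image_preimage_eq p hW).le))
  on_smul W hW r s := by
    have key : ∀ (V : Y.Opens) (r : Γ(X, p ''ᵁ V)) (s : Γ(F, p ''ᵁ V)),
        (G.restrictAppIso p V).hom (θ.app V ((F.restrictAppIso p V).inv (r • s))) =
          r • (G.restrictAppIso p V).hom (θ.app V ((F.restrictAppIso p V).inv s)) := by
      intro V r s
      simp
    simp only [AddMonoidHom.coe_comp, Function.comp_apply, AddCommGrpCat.hom_comp]
    rw [rs_smul, key, rs_smul]
    congr 1
    rw [← ConcreteCategory.comp_apply, ← Functor.map_comp, ← op_comp, homOfLE_comp]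
    rw [show (homOfLE (le_refl W)).op = 𝟙 (op W) from rfl, CategoryTheory.Functor.map_id]
    rfl
  natural V W hV h s := by
    have h' : p ⁻¹ᵁ W ≤ p ⁻¹ᵁ V := p.preimage_mono h
    have key := hom_app_rs θ h' ((F.restrictAppIso p _).inv (rs F (image_preimage_eq p hV).le s))
    simp only [AddMonoidHom.coe_comp, Function.comp_apply, AddCommGrpCat.hom_comp, rs_rs] at key ⊢
    have e1 : rs F (le_trans (image_preimage_eq p (h.trans hV)).le h) s =
        (F.restrictAppIso p _).hom (rs (F.restrict p) h'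
          ((F.restrictAppIso p _).inv (rs F (image_preimage_eq p hV).le s))) := by
      change _ = rs F (p.image_mono h') (rs F (image_preimage_eq p hV).le s)
      rw [rs_rs]
    rw [e1]
    change rs G _ ((G.restrictAppIso p _).hom (θ.app _ (rs (F.restrict p) h' _))) = _
    rw [key]
    change rs G _ (rs G (p.image_mono h') _) = _
    exact rs_rs _ _ _

lemma LocalHom.ofRestrict_on_image (θ : F.restrict p ⟶ G.restrict p) (V : Y.Opens)
    (s : Γ(F, p ''ᵁ V)) :
    (LocalHom.ofRestrict p θ).on (p ''ᵁ V) (p.image_le_opensRange V) s =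
      (G.restrictAppIso p V).hom (θ.app V ((F.restrictAppIso p V).inv s)) := by
  have h' : p ⁻¹ᵁ p ''ᵁ V ≤ V := (p.preimage_image_eq V).le
  have key := hom_app_rs θ h' ((F.restrictAppIso p V).inv s)
  change rs G _ ((G.restrictAppIso p _).hom (θ.app _
    (rs F (p.image_mono h') ((F.restrictAppIso p V).inv s)))) = _
  change rs G _ ((G.restrictAppIso p _).hom (θ.app _
    (rs (F.restrict p) h' ((F.restrictAppIso p V).inv s)))) = _
  rw [key]
  change rs G _ (rs G (p.image_mono h') _) = _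
  exact (rs_rs _ _ _).trans (rs_self _ _)

variable {U U' U₀ U₁ : X.Opens}

/-- The morphism of restrictions given by a local homomorphism. -/
noncomputable def LocalHom.toRestrict (φ : LocalHom U F G) (hp : p.opensRange ≤ U) :
    F.restrict p ⟶ G.restrict p :=
  ⟨PresheafOfModules.homMk
    { app := fun V => AddCommGrpCat.ofHom
        (φ.on (p ''ᵁ V.unop) ((p.image_le_opensRange _).trans hp))
      naturality := fun V W i => by
        ext s
        exact φ.natural _ _ ((p.image_le_opensRange _).trans hp)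
          (p.image_mono (leOfHom i.unop)) s }
    fun V r s => φ.on_smul _ _ ((p.appIso V.unop).inv r) s⟩

lemma LocalHom.toRestrict_app (φ : LocalHom U F G) (hp : p.opensRange ≤ U) (V : Y.Opens)
    (s : Γ(F.restrict p, V)) :
    (φ.toRestrict p hp).app V s =
      (G.restrictAppIso p V).inv (φ.on _ ((p.image_le_opensRange _).trans hp)
        ((F.restrictAppIso p V).hom s)) := rfl

lemma LocalHom.eq_of_toRestrict_eq (φ : LocalHom U F G) (ψ : LocalHom U' F G)
    (hp : p.opensRange ≤ U) (hp' : p.opensRange ≤ U')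
    (h : φ.toRestrict p hp = ψ.toRestrict p hp') {W : X.Opens} (hW : W ≤ p.opensRange)
    (s : Γ(F, W)) : φ.on W (hW.trans hp) s = ψ.on W (hW.trans hp') s := by
  have e := image_preimage_eq p hW
  have key := congr($h |>.app (p ⁻¹ᵁ W) ((F.restrictAppIso p _).inv (rs F e.le s)))
  change φ.on _ _ (rs F e.le s) = ψ.on _ _ (rs F e.le s) at key
  rw [φ.natural _ _ (hW.trans hp) e.le s, ψ.natural _ _ (hW.trans hp') e.le s] at key
  simpa using congrArg (rs G e.ge) key

/-- Two local homomorphisms on two covering opens agreeing on the overlap glue. -/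
theorem exists_glue (hcov : U₀ ⊔ U₁ = ⊤) (φ₀ : LocalHom U₀ F G) (φ₁ : LocalHom U₁ F G)
    (h : ∀ (W : X.Opens) (h₀ : W ≤ U₀) (h₁ : W ≤ U₁) (s : Γ(F, W)),
      φ₀.on W h₀ s = φ₁.on W h₁ s) :
    ∃ θ : F ⟶ G, (∀ (W : X.Opens) (hW : W ≤ U₀) (s : Γ(F, W)), θ.app W s = φ₀.on W hW s) ∧
      ∀ (W : X.Opens) (hW : W ≤ U₁) (s : Γ(F, W)), θ.app W s = φ₁.on W hW s := by
  have hle : ∀ V : X.Opens, V ≤ U₀ ⊔ U₁ := fun V => hcov ▸ le_top
  have hex : ∀ (V : X.Opens) (s : Γ(F, V)), ∃! t : Γ(G, V),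
      rs G inf_le_left t = φ₀.on (V ⊓ U₀) inf_le_right (rs F inf_le_left s) ∧
      rs G inf_le_left t = φ₁.on (V ⊓ U₁) inf_le_right (rs F inf_le_left s) := by
    intro V s
    obtain ⟨t, ht, -⟩ := TopCat.Sheaf.existsUnique_gluing' ⟨_, G.isSheaf⟩
      (fun b : Bool => if b then V ⊓ U₀ else V ⊓ U₁) V
      (fun b => homOfLE (by cases b <;> simp))
      (by rw [iSup_bool_eq]; simpa [← inf_sup_left] using hle V)
      (fun b => match b with
        | true => φ₀.on (V ⊓ U₀) inf_le_right (rs F inf_le_left s)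
        | false => φ₁.on (V ⊓ U₁) inf_le_right (rs F inf_le_left s))
      (by
        rintro (_ | _) (_ | _)
        · rfl
        · change rs G (inf_le_left : (V ⊓ U₁) ⊓ (V ⊓ U₀) ≤ _) (φ₁.on (V ⊓ U₁) inf_le_right _) =
            rs G (inf_le_right : (V ⊓ U₁) ⊓ (V ⊓ U₀) ≤ _) (φ₀.on (V ⊓ U₀) inf_le_right _)
          rw [← φ₀.natural, ← φ₁.natural, rs_rs, rs_rs]
          exact (h _ _ _ _).symm
        · change rs G (inf_le_left : (V ⊓ U₀) ⊓ (V ⊓ U₁) ≤ _) (φ₀.on (V ⊓ U₀) inf_le_right _) =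
            rs G (inf_le_right : (V ⊓ U₀) ⊓ (V ⊓ U₁) ≤ _) (φ₁.on (V ⊓ U₁) inf_le_right _)
          rw [← φ₀.natural, ← φ₁.natural, rs_rs, rs_rs]
          exact h _ _ _ _
        · rfl)
    exact ⟨t, ⟨ht true, ht false⟩, fun t' ht' =>
      rs_eq₂ (hle V) (ht'.1.trans (ht true).symm) (ht'.2.trans (ht false).symm)⟩
  choose T hT hT' using hex
  have hadd : ∀ V s s', T V (s + s') = T V s + T V s' := fun V s s' => by
    refine (hT' V _ _ ⟨?_, ?_⟩).symm <;>
      simp only [map_add, (hT V s).1, (hT V s).2, (hT V s').1, (hT V s').2]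
  have hsmul : ∀ V (r : Γ(X, V)) s, T V (r • s) = r • T V s := fun V r s => by
    refine (hT' V _ _ ⟨?_, ?_⟩).symm <;>
      simp only [rs_smul, (hT V s).1, (hT V s).2, φ₀.on_smul, φ₁.on_smul]
  have hnat : ∀ {V W : X.Opens} (hWV : W ≤ V) s, T W (rs F hWV s) = rs G hWV (T V s) := by
    intro V W hWV s
    refine (hT' W _ _ ⟨?_, ?_⟩).symm
    · rw [rs_rs, rs_rs, ← rs_rs (F := G) inf_le_left (inf_le_inf_right U₀ hWV), (hT V s).1,
        ← φ₀.natural, rs_rs]
    · rw [rs_rs, rs_rs, ← rs_rs (F := G) inf_le_left (inf_le_inf_right U₁ hWV), (hT V s).2,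
        ← φ₁.natural, rs_rs]
  refine ⟨⟨PresheafOfModules.homMk
    { app := fun V => AddCommGrpCat.ofHom (AddMonoidHom.mk' (T V.unop) (hadd _))
      naturality := fun V W i => by
        ext s
        exact hnat (leOfHom i.unop) s }
    fun V r s => hsmul V.unop r s⟩, fun W hW s => ?_, fun W hW s => ?_⟩
  · refine (hT' W s _ ⟨?_, ?_⟩).symm
    · rw [← φ₀.natural]
    · rw [← φ₀.natural, h]
  · refine (hT' W s _ ⟨?_, ?_⟩).symm
    · rw [← φ₁.natural, ← h]
    · rw [← φ₁.natural]

/-- A morphism is determined by its restrictions to two opens which cover. -/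
theorem hom_eq_of_cover {Y₀ Y₁ : Scheme.{u}} (p₀ : Y₀ ⟶ X) (p₁ : Y₁ ⟶ X) [IsOpenImmersion p₀]
    [IsOpenImmersion p₁] (hcov : p₀.opensRange ⊔ p₁.opensRange = ⊤) {θ θ' : F ⟶ G}
    (h₀ : (Scheme.Modules.restrictFunctor p₀).map θ = (Scheme.Modules.restrictFunctor p₀).map θ')
    (h₁ : (Scheme.Modules.restrictFunctor p₁).map θ = (Scheme.Modules.restrictFunctor p₁).map θ') :
    θ = θ' := by
  ext V s
  refine rs_eq₂ (hcov ▸ le_top (a := V)) ?_ ?_
  · rw [← hom_app_rs, ← hom_app_rs]
    have e := image_preimage_eq p₀ (inf_le_right : V ⊓ p₀.opensRange ≤ _)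
    have key : θ.app _ (rs F (e.le.trans inf_le_left) s) =
        θ'.app _ (rs F (e.le.trans inf_le_left) s) := congr($h₀ |>.app _ _)
    rw [hom_app_rs, hom_app_rs] at key
    simpa [hom_app_rs] using congrArg (rs G e.ge) key
  · rw [← hom_app_rs, ← hom_app_rs]
    have e := image_preimage_eq p₁ (inf_le_right : V ⊓ p₁.opensRange ≤ _)
    have key : θ.app _ (rs F (e.le.trans inf_le_left) s) =
        θ'.app _ (rs F (e.le.trans inf_le_left) s) := congr($h₁ |>.app _ _)
    rw [hom_app_rs, hom_app_rs] at key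
    simpa [hom_app_rs] using congrArg (rs G e.ge) key

end FermatLib.AV.SheafBridge
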