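import Fermat.Agent.AV.Jac.Bridge.CurveCover

/-!
The sheaf of a bundle on the base change of a two-chart curve.
-/

set_option autoImplicit false
set_option backward.isDefEq.respectTransparency false

universe u

open CategoryTheory CategoryTheory.Limits AlgebraicGeometry NeronModelInfra
open scoped TensorProduct

namespace FermatLib.AV.SheafBridge

/-- A regular element stays regular on a projective module. -/
theorem smul_eq_zero_of_projective {A : Type u} [CommRing A] {M : Type u} [AddCommGroup M]
    [Module A M] [Module.Projective A M] {a : A} (ha : ∀ b : A, a * b = 0 → b = 0) {t : M}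
    (h : a • t = 0) : t = 0 := by
  obtain ⟨s, hs⟩ := Module.projective_def'.1 (inferInstance : Module.Projective A M)
  have h' : s t = 0 := by
    ext i
    refine ha _ ?_
    have := DFunLike.congr_fun (congrArg s h) i
    simpa using this
  simpa [h'] using (LinearMap.congr_fun hs t).symm

/-- The module structure on sections of a sheaf on an affine scheme. -/
noncomputable abbrev specModule (A : CommRingCat.{u}) (N : (Spec A).Modules)
    (U : (Spec A).Opens) : Module A Γ(N, U) := inferInstance

/-- Sections on an affine scheme as a module over the underlying ring. -/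
noncomputable instance specModuleOf (A : Type u) [CommRing A]
    (N : (Spec (CommRingCat.of A)).Modules) (U : (Spec (CommRingCat.of A)).Opens) :
    Module A Γ(N, U) := specModule (CommRingCat.of A) N U

end FermatLib.AV.SheafBridge

namespace FermatLib.AV.CurveCharts

open SheafBridge

variable {k : Type u} [Field k] {C : Scheme.{u}} {c : C ⟶ Spec (CommRingCat.of k)}
  {ε : SchemeHomOver (𝟙 (Spec (CommRingCat.of k))) c} (P : CurveCharts k c ε)
  {R : Type u} [CommRing R] [Algebra k R]

lemma xR_regular (b : P.R0 R) {n : ℕ} (h : P.toChartData.xR R ^ n * b = 0) : b = 0 := by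
  apply P.toChartData.r0_injective R
  have hu := (IsUnit.of_mul_eq_one _ (P.toChartData.r0_x_mul_r1_y R)).pow n
  have h' := congrArg (P.r0 R) h
  rw [map_mul, map_pow, map_zero] at h'
  rw [map_zero]
  exact hu.mul_right_eq_zero.1 h'

lemma yR_regular (b : P.R1 R) {n : ℕ} (h : P.toChartData.yR R ^ n * b = 0) : b = 0 := by
  apply P.r1_injective R
  have hu := (IsUnit.of_mul_eq_one _
    ((mul_comm _ _).trans (P.toChartData.r0_x_mul_r1_y R))).pow n
  have h' := congrArg (P.r1 R) h
  rw [map_mul, map_pow, map_zero] at h'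
  rw [map_zero]
  exact hu.mul_right_eq_zero.1 h'

/-- The inclusion of the first lattice. -/
noncomputable def incl0 (B : P.Bundle R) : B.L0 →ₛₗ[(P.r0 R).toRingHom] B.M where
  toFun m := m.1
  map_add' _ _ := rfl
  map_smul' a m := (B.smul0 a m.1).symm

/-- The inclusion of the second lattice. -/
noncomputable def incl1 (B : P.Bundle R) : B.L1 →ₛₗ[(P.r1 R).toRingHom] B.M where
  toFun m := m.1
  map_add' _ _ := rfl
  map_smul' a m := (B.smul1 a m.1).symm

theorem isLocMap_incl0 (B : P.Bundle R) :
    IsLocMap (A := CommRingCat.of (P.R0 R)) (B := CommRingCat.of (P.R01 R))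
      (CommRingCat.ofHom (P.r0 R).toRingHom) (P.toChartData.xR R) (P.incl0 B) := by
  refine ⟨fun s => ?_, fun t ht => ⟨0, ?_⟩⟩
  · obtain ⟨N, hN⟩ := B.exists_mem0 s
    refine ⟨N, ⟨_, hN⟩, ?_⟩
    change P.toChartData.xR R ^ N • s = P.r0 R (P.toChartData.xR R) ^ N • s
    rw [← map_pow]
    exact (B.smul0 _ _).symm
  · rw [pow_zero, one_smul]
    exact Subtype.ext ht

theorem isLocMap_incl1 (B : P.Bundle R) :
    IsLocMap (A := CommRingCat.of (P.R1 R)) (B := CommRingCat.of (P.R01 R))
      (CommRingCat.ofHom (P.r1 R).toRingHom) (P.toChartData.yR R) (P.incl1 B) := by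
  refine ⟨fun s => ?_, fun t ht => ⟨0, ?_⟩⟩
  · obtain ⟨N, hN⟩ := B.exists_mem1 s
    refine ⟨N, ⟨_, hN⟩, ?_⟩
    change P.toChartData.yR R ^ N • s = P.r1 R (P.toChartData.yR R) ^ N • s
    rw [← map_pow]
    exact (B.smul1 _ _).symm
  · rw [pow_zero, one_smul]
    exact Subtype.ext ht

/-- `F` realises the bundle `B`. -/
structure Realization (B : P.Bundle R) (F : (pullback c (specStr k R)).Modules) : Type u where
  qc : (P.twoCover R).IsQC F
  e0 : chartSec (P.twoCover R).p0 F ≃ₗ[P.R0 R] B.L0
  e1 : chartSec (P.twoCover R).p1 F ≃ₗ[P.R1 R] B.L1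
  e01 : chartSec (P.twoCover R).q F ≃ₗ[P.R01 R] B.M
  comm0 : ∀ t, e01 ((P.twoCover R).res0 F t) = e0 t
  comm1 : ∀ t, e01 ((P.twoCover R).res1 F t) = e1 t

theorem exists_realization (B : P.Bundle R) :
    ∃ F, Nonempty (P.Realization B F) := by
  obtain ⟨F, hF, e0, e1, e01, c0, c1⟩ := (P.twoCover R).exists_glued
    (ModuleCat.of (P.R0 R) B.L0) (ModuleCat.of (P.R1 R) B.L1) (ModuleCat.of (P.R01 R) B.M)
    (P.incl0 B) (P.incl1 B) (P.isLocMap_incl0 B) (P.isLocMap_incl1 B)
  exact ⟨F, ⟨⟨hF, e0, e1, e01, c0, c1⟩⟩⟩

namespace Realization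

variable {P} {B B' : P.Bundle R} {F F' : (pullback c (specStr k R)).Modules}

theorem isInvertible (h : P.Realization B F) : Scheme.Modules.IsInvertible F := by
  have := h.qc
  have := (P.twoCover R).isIso0 (F := F)
  have := (P.twoCover R).isIso1 (F := F)
  refine ⟨fun y => ?_⟩
  have hy : y ∈ ((P.twoCover R).p0.opensRange ⊔ (P.twoCover R).p1.opensRange :
      TopologicalSpace.Opens _) := (P.twoCover R).cover.ge trivial
  rcases hy with ⟨x, rfl⟩ | ⟨x, rfl⟩
  · have : Module.Invertible (P.R0 R) (chartSec (P.twoCover R).p0 F) :=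
      Module.Invertible.congr h.e0.symm
    exact exists_trivialization_chart _ x
  · have : Module.Invertible (P.R1 R) (chartSec (P.twoCover R).p1 F) :=
      Module.Invertible.congr h.e1.symm
    exact exists_trivialization_chart _ x

/-- Isomorphic bundles have isomorphic sheaves. -/
theorem nonempty_iso (h : P.Realization B F) (h' : P.Realization B' F') (e : B.Isom B') :
    Nonempty (F ≅ F') := by
  obtain ⟨i⟩ := e
  have := h.qc
  have := h'.qc
  let i0 : B.L0 ≃ₗ[P.R0 R] B'.L0 :=
    { toFun := fun m => ⟨i.toEquiv m.1, (i.mem0 m.1).2 m.2⟩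
      invFun := fun m => ⟨i.toEquiv.symm m.1, (i.mem0 _).1 (by simp)⟩
      left_inv := fun m => Subtype.ext (i.toEquiv.symm_apply_apply _)
      right_inv := fun m => Subtype.ext (i.toEquiv.apply_symm_apply _)
      map_add' := fun m n => Subtype.ext (map_add i.toEquiv _ _)
      map_smul' := fun a m => Subtype.ext (by
        change i.toEquiv (a • m.1) = a • i.toEquiv m.1
        rw [← B.smul0, map_smul, B'.smul0]) }
  let i1 : B.L1 ≃ₗ[P.R1 R] B'.L1 :=
    { toFun := fun m => ⟨i.toEquiv m.1, (i.mem1 m.1).2 m.2⟩
      invFun := fun m => ⟨i.toEquiv.symm m.1, (i.mem1 _).1 (by simp)⟩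
      left_inv := fun m => Subtype.ext (i.toEquiv.symm_apply_apply _)
      right_inv := fun m => Subtype.ext (i.toEquiv.apply_symm_apply _)
      map_add' := fun m n => Subtype.ext (map_add i.toEquiv _ _)
      map_smul' := fun a m => Subtype.ext (by
        change i.toEquiv (a • m.1) = a • i.toEquiv m.1
        rw [← B.smul1, map_smul, B'.smul1]) }
  let f0 := (h.e0.trans i0).trans h'.e0.symm
  let f1 := (h.e1.trans i1).trans h'.e1.symm
  let f01 := (h.e01.trans i.toEquiv).trans h'.e01.symm
  obtain ⟨θ, t0, t1, -⟩ := (P.twoCover R).exists_hom f0.toLinearMap f1.toLinearMap f01.toLinearMap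
    (fun t => h'.e01.injective (by
      rw [h'.comm0]
      simp [f0, f01, i0, h.comm0]))
    (fun t => h'.e01.injective (by
      rw [h'.comm1]
      simp [f1, f01, i1, h.comm1]))
  have : IsIso θ := (P.twoCover R).isIso_of_bijective θ
    (by convert! f0.bijective using 1; exact funext t0)
    (by convert! f1.bijective using 1; exact funext t1)
  exact ⟨asIso θ⟩

/-- Bundles with isomorphic sheaves are isomorphic. -/
theorem isom (h : P.Realization B F) (h' : P.Realization B' F') (e : F ≅ F') : B.Isom B' := by
  let T := P.twoCover R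
  let I : B.M ≃ₗ[P.R01 R] B'.M := (h.e01.symm.trans (chartEquiv T.q e)).trans h'.e01
  have k0 : ∀ t, I (h.e0 t).1 = (h'.e0 (chartApp T.p0 e.hom t)).1 := fun t => by
    rw [← h.comm0, ← h'.comm0]
    simp only [I, T, LinearEquiv.trans_apply, LinearEquiv.symm_apply_apply]
    exact congrArg h'.e01 (chartRes_chartApp _ _ _ _ _ _).symm
  have k1 : ∀ t, I (h.e1 t).1 = (h'.e1 (chartApp T.p1 e.hom t)).1 := fun t => by
    rw [← h.comm1, ← h'.comm1]
    simp only [I, T, LinearEquiv.trans_apply, LinearEquiv.symm_apply_apply]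
    exact congrArg h'.e01 (chartRes_chartApp _ _ _ _ _ _).symm
  refine ⟨⟨I, fun m => ⟨fun hm => ?_, fun hm => ?_⟩, fun m => ⟨fun hm => ?_, fun hm => ?_⟩⟩⟩
  · obtain ⟨t', ht'⟩ := h'.e0.surjective ⟨_, hm⟩
    obtain ⟨t, rfl⟩ := (chartEquiv T.p0 e).surjective t'
    have : m = (h.e0 t).1 := I.injective (by rw [k0]; exact (congrArg Subtype.val ht').symm)
    rw [this]
    exact (h.e0 t).2
  · obtain ⟨t, ht⟩ := h.e0.surjective ⟨m, hm⟩
    rw [show m = (h.e0 t).1 from (congrArg Subtype.val ht).symm, k0]
    exact Subtype.coe_prop _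
  · obtain ⟨t', ht'⟩ := h'.e1.surjective ⟨_, hm⟩
    obtain ⟨t, rfl⟩ := (chartEquiv T.p1 e).surjective t'
    have : m = (h.e1 t).1 := I.injective (by rw [k1]; exact (congrArg Subtype.val ht').symm)
    rw [this]
    exact (h.e1 t).2
  · obtain ⟨t, ht⟩ := h.e1.surjective ⟨m, hm⟩
    rw [show m = (h.e1 t).1 from (congrArg Subtype.val ht).symm, k1]
    exact Subtype.coe_prop _

/-- Transport of a realisation along an isomorphism. -/
noncomputable def ofIso (h : P.Realization B F) (e : F ≅ F') : P.Realization B F' where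
  qc := TwoCover.isQC_of_isInvertible _ (IsInvertible.of_iso e h.isInvertible)
  e0 := (chartEquiv (P.twoCover R).p0 e.symm).trans h.e0
  e1 := (chartEquiv (P.twoCover R).p1 e.symm).trans h.e1
  e01 := (chartEquiv (P.twoCover R).q e.symm).trans h.e01
  comm0 t := by
    change h.e01 (chartApp (P.twoCover R).q e.inv _) = _
    rw [← chartRes_chartApp]
    exact h.comm0 _
  comm1 t := by
    change h.e01 (chartApp (P.twoCover R).q e.inv _) = _
    rw [← chartRes_chartApp]
    exact h.comm1 _

end Realization

/-- An invertible sheaf realises some bundle. -/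
theorem exists_bundle_realization (F : (pullback c (specStr k R)).Modules)
    (hF : Scheme.Modules.IsInvertible F) :
    ∃ B : P.Bundle R, Nonempty (P.Realization B F) := by
  let T := P.twoCover R
  have := T.isQC_of_isInvertible hF
  have := T.isIso0 (F := F)
  have := T.isIso1 (F := F)
  have h0 := isLocMap_chartRes T.p0 T.q T.j0 T.hq0 T.x0 T.loc0 F
  have h1 := isLocMap_chartRes T.p1 T.q T.j1 T.hq1 T.x1 T.loc1 F
  let M := chartSec (P.twoCover R).q F
  let _ : Module R M := Module.compHom M (algebraMap R (P.R01 R))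
  let _ : Module (P.R0 R) M := Module.compHom M (P.r0 R).toRingHom
  let _ : Module (P.R1 R) M := Module.compHom M (P.r1 R).toRingHom
  have t01 : IsScalarTower R (P.R01 R) M := IsScalarTower.of_compHom _ _ _
  have t0 : IsScalarTower R (P.R0 R) M := IsScalarTower.of_algebraMap_smul fun r m => by
    change P.r0 R (algebraMap R (P.R0 R) r) • m = algebraMap R (P.R01 R) r • m
    rw [AlgHom.commutes]
  have t1 : IsScalarTower R (P.R1 R) M := IsScalarTower.of_algebraMap_smul fun r m => by
    change P.r1 R (algebraMap R (P.R1 R) r) • m = algebraMap R (P.R01 R) r • m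
    rw [AlgHom.commutes]
  let l0 : chartSec T.p0 F →ₗ[P.R0 R] M :=
    { toFun := T.res0 F
      map_add' := map_add _
      map_smul' := fun a t => (T.res0 F).map_smulₛₗ a t }
  let l1 : chartSec T.p1 F →ₗ[P.R1 R] M :=
    { toFun := T.res1 F
      map_add' := map_add _
      map_smul' := fun a t => (T.res1 F).map_smulₛₗ a t }
  have : Module.Invertible (P.R0 R) (chartSec T.p0 F) := invertible_chartSec (P.twoCover R).p0 hF
  have : Module.Invertible (P.R1 R) (chartSec T.p1 F) := invertible_chartSec (P.twoCover R).p1 hF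
  have i0 : Function.Injective l0 := (injective_iff_map_eq_zero _).2 fun t ht => by
    obtain ⟨n, hn⟩ := h0.exists_of_eq_zero t ht
    exact smul_eq_zero_of_projective (fun b hb => P.xR_regular b hb) hn
  have i1 : Function.Injective l1 := (injective_iff_map_eq_zero _).2 fun t ht => by
    obtain ⟨n, hn⟩ := h1.exists_of_eq_zero t ht
    exact smul_eq_zero_of_projective (fun b hb => P.yR_regular b hb) hn
  let B : P.Bundle R :=
    { M := M
      smul0 := fun a m => rfl
      smul1 := fun a m => rfl
      L0 := LinearMap.range l0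
      L1 := LinearMap.range l1
      invertible0 := Module.Invertible.congr (LinearEquiv.ofInjective l0 i0)
      invertible1 := Module.Invertible.congr (LinearEquiv.ofInjective l1 i1)
      exists_mem0 := fun m => by
        obtain ⟨n, t, ht⟩ := h0.surj m
        refine ⟨n, t, ?_⟩
        change T.res0 F t = P.r0 R (P.toChartData.xR R ^ n) • m
        rw [map_pow]
        exact ht
      exists_mem1 := fun m => by
        obtain ⟨n, t, ht⟩ := h1.surj m
        refine ⟨n, t, ?_⟩
        change T.res1 F t = P.r1 R (P.toChartData.yR R ^ n) • m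
        rw [map_pow]
        exact ht }
  exact ⟨B, ⟨{ qc := inferInstance
               e0 := LinearEquiv.ofInjective l0 i0
               e1 := LinearEquiv.ofInjective l1 i1
               e01 := LinearEquiv.refl _ _
               comm0 := fun t => rfl
               comm1 := fun t => rfl }⟩⟩

/-- The sheaf of a bundle. -/
noncomputable def toModules (B : P.toChartData.Bundle R) :
    (pullback c (specStr k R)).Modules :=
  (P.exists_realization B).choose

/-- The sheaf of a bundle realises it. -/
noncomputable def realization (B : P.toChartData.Bundle R) :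
    P.Realization B (P.toModules B) :=
  (P.exists_realization B).choose_spec.some

theorem isInvertible_toModules (B : P.toChartData.Bundle R) :
    Scheme.Modules.IsInvertible (P.toModules B) :=
  (P.realization B).isInvertible

theorem exists_bundle (L : (pullback c (specStr k R)).Modules)
    (hL : Scheme.Modules.IsInvertible L) :
    ∃ B : P.toChartData.Bundle R, Nonempty (P.toModules B ≅ L) := by
  obtain ⟨B, ⟨h⟩⟩ := P.exists_bundle_realization L hL
  exact ⟨B, (P.realization B).nonempty_iso h ⟨⟨LinearEquiv.refl _ _, fun _ => Iff.rfl,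
    fun _ => Iff.rfl⟩⟩⟩

theorem isom_iff (B B' : P.toChartData.Bundle R) :
    B.Isom B' ↔ Nonempty (P.toModules B ≅ P.toModules B') :=
  ⟨(P.realization B).nonempty_iso (P.realization B'),
    fun ⟨e⟩ => (P.realization B).isom (P.realization B') e⟩

end FermatLib.AV.CurveCharts
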