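import Fermat.Agent.AV.Jac.Bridge.Realize

/-!
Trivial bundles correspond to the structure sheaf.
-/

set_option autoImplicit false
set_option backward.isDefEq.respectTransparency false

universe u

open CategoryTheory CategoryTheory.Limits AlgebraicGeometry NeronModelInfra TopologicalSpace
open scoped TensorProduct

namespace FermatLib.AV.SheafBridge

variable {X : Scheme.{u}} {A B : CommRingCat.{u}} (p : Spec A ⟶ X) [IsOpenImmersion p]
  (q : Spec B ⟶ X) [IsOpenImmersion q] (j : A ⟶ B) (hq : Spec.map j ≫ p = q)

/-- The structure sheaf as a module. -/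
noncomputable abbrev unitMod (X : Scheme.{u}) : X.Modules := SheafOfModules.unit X.ringCatSheaf

/-- The section `1` of the structure sheaf. -/
def oneSec (V : X.Opens) : Γ(unitMod X, V) := (1 : Γ(X, V))

lemma smul_oneSec (V : X.Opens) (r : Γ(X, V)) :
    r • oneSec V = (show Γ(unitMod X, V) from r) :=
  mul_one r

lemma rs_oneSec {V W : X.Opens} (h : W ≤ V) : rs (unitMod X) h (oneSec V) = oneSec W :=
  map_one (X.presheaf.map (homOfLE h).op).hom

/-- The section `1` over a chart. -/
noncomputable def unitSec : chartSec p (unitMod X) :=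
  ((unitMod X).restrictAppIso p ⊤).inv (oneSec _)

theorem bijective_smul_unitSec : Function.Bijective fun a : A => a • unitSec p := by
  have h : ∀ a : A, ((unitMod X).restrictAppIso p ⊤).hom (a • unitSec p) = coordMap p a := fun a => by
    rw [chartSec_smul, unitSec, Iso.inv_hom_id_apply, smul_oneSec]
  refine (Function.Bijective.of_comp_iff' (ConcreteCategory.bijective_of_isIso
    ((unitMod X).restrictAppIso p ⊤).hom) _).1 ?_
  rw [show (⇑((unitMod X).restrictAppIso p ⊤).hom ∘ fun a : A => a • unitSec p) =
    fun a => (show Γ(unitMod X, p ''ᵁ ⊤) from coordMap p a) from funext h]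
  have : IsIso (coordMap p) := by unfold coordMap; infer_instance
  exact ConcreteCategory.bijective_of_isIso (coordMap p)

lemma chartRes_unitSec : chartRes p q j hq (unitMod X) (unitSec p) = unitSec q := by
  apply (ConcreteCategory.bijective_of_isIso ((unitMod X).restrictAppIso q ⊤).hom).1
  rw [chartRes_apply, unitSec, unitSec, Iso.inv_hom_id_apply, Iso.inv_hom_id_apply, rs_oneSec]

/-- The coordinate ring as the sections of the structure sheaf. -/
noncomputable def unitSecEquiv : A ≃ₗ[A] chartSec p (unitMod X) :=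
  LinearEquiv.ofBijective (LinearMap.toSpanSingleton A _ (unitSec p)) (bijective_smul_unitSec p)

@[simp] lemma unitSecEquiv_apply (a : A) : unitSecEquiv p a = a • unitSec p := rfl

@[simp] lemma unitSecEquiv_symm_unitSec : (unitSecEquiv p).symm (unitSec p) = 1 :=
  (unitSecEquiv p).injective (by rw [LinearEquiv.apply_symm_apply, unitSecEquiv_apply, one_smul])

namespace TwoCover

variable (T : TwoCover X) {F : X.Modules}

/-- A module with generators agreeing on the overlap is the structure sheaf. -/
theorem nonempty_iso_unitMod [T.IsQC F] (t0 : chartSec T.p0 F) (t1 : chartSec T.p1 F)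
    (h : T.res0 F t0 = T.res1 F t1) (h0 : Function.Bijective fun a : T.A0 => a • t0)
    (h1 : Function.Bijective fun a : T.A1 => a • t1) : Nonempty (F ≅ unitMod X) := by
  have hU : T.IsQC (unitMod X) := T.isQC_of_isInvertible (Scheme.Modules.isInvertible_unit _)
  let f0 : chartSec T.p0 (unitMod X) →ₗ[T.A0] chartSec T.p0 F :=
    (LinearMap.toSpanSingleton T.A0 _ t0).comp (unitSecEquiv T.p0).symm.toLinearMap
  let f1 : chartSec T.p1 (unitMod X) →ₗ[T.A1] chartSec T.p1 F :=
    (LinearMap.toSpanSingleton T.A1 _ t1).comp (unitSecEquiv T.p1).symm.toLinearMap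
  let f01 : chartSec T.q (unitMod X) →ₗ[T.A01] chartSec T.q F :=
    (LinearMap.toSpanSingleton T.A01 _ (T.res0 F t0)).comp (unitSecEquiv T.q).symm.toLinearMap
  have hq : f01 (unitSec T.q) = T.res0 F t0 := by
    simp only [f01, LinearMap.comp_apply, LinearEquiv.coe_coe, unitSecEquiv_symm_unitSec,
      LinearMap.toSpanSingleton_apply, one_smul]
  obtain ⟨θ, k0, k1, -⟩ := T.exists_hom f0 f1 f01
    (fun s => by
      obtain ⟨a, rfl⟩ := (unitSecEquiv T.p0).surjective s
      simp only [f0, LinearMap.comp_apply, LinearEquiv.coe_coe,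
        LinearMap.toSpanSingleton_apply, unitSecEquiv_apply, map_smulₛₗ,
        chartRes_unitSec, RingHom.id_apply, unitSecEquiv_symm_unitSec, one_smul]
      rw [hq])
    (fun s => by
      obtain ⟨a, rfl⟩ := (unitSecEquiv T.p1).surjective s
      simp only [f1, LinearMap.comp_apply, LinearEquiv.coe_coe,
        LinearMap.toSpanSingleton_apply, unitSecEquiv_apply, map_smulₛₗ,
        chartRes_unitSec, RingHom.id_apply, unitSecEquiv_symm_unitSec, one_smul]
      rw [hq, ← h])
  have : IsIso θ := T.isIso_of_bijective θ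
    (by
      rw [show ⇑(chartApp T.p0 θ) = (fun a => a • t0) ∘ (unitSecEquiv T.p0).symm from funext k0]
      exact h0.comp (unitSecEquiv T.p0).symm.bijective)
    (by
      rw [show ⇑(chartApp T.p1 θ) = (fun a => a • t1) ∘ (unitSecEquiv T.p1).symm from funext k1]
      exact h1.comp (unitSecEquiv T.p1).symm.bijective)
  exact ⟨(asIso θ).symm⟩

/-- The structure sheaf has compatible generators on the two charts. -/
theorem exists_generators (i : F ≅ unitMod X) :
    ∃ (t0 : chartSec T.p0 F) (t1 : chartSec T.p1 F), T.res0 F t0 = T.res1 F t1 ∧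
      (Function.Bijective fun a : T.A0 => a • t0) ∧ (Function.Bijective fun a : T.A1 => a • t1) ∧
      Function.Bijective fun a : T.A01 => a • T.res0 F t0 := by
  have key : ∀ {B : CommRingCat.{u}} (p : Spec B ⟶ X) [IsOpenImmersion p],
      Function.Bijective fun a : B => a • chartApp p i.inv (unitSec p) := fun p _ => by
    have := ((unitSecEquiv p).trans (chartEquiv p i.symm)).bijective
    convert! this using 1
    funext a
    simp
  refine ⟨_, _, ?_, key T.p0, key T.p1, ?_⟩
  · rw [chartRes_chartApp, chartRes_chartApp, chartRes_unitSec, chartRes_unitSec]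
  · rw [chartRes_chartApp, chartRes_unitSec]
    exact key T.q

end TwoCover

end FermatLib.AV.SheafBridge

namespace FermatLib.AV.CurveCharts

open SheafBridge

variable {k : Type u} [Field k] {C : Scheme.{u}} {c : C ⟶ Spec (CommRingCat.of k)}
  {ε : SchemeHomOver (𝟙 (Spec (CommRingCat.of k))) c} (P : CurveCharts k c ε)
  {R : Type u} [CommRing R] [Algebra k R]

theorem isTrivial_of_iso {B : P.Bundle R} {F : (pullback c (specStr k R)).Modules}
    (h : P.Realization B F) (i : F ≅ unitMod (pullback c (specStr k R))) : B.IsTrivial := by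
  obtain ⟨t0, t1, ht, b0, b1, b01⟩ := (P.twoCover R).exists_generators i
  have e01 : h.e01 ((P.twoCover R).res0 F t0) = (h.e0 t0).1 := h.comm0 t0
  have e11 : (h.e0 t0).1 = (h.e1 t1).1 := by rw [← e01, ht, h.comm1]
  refine ⟨(h.e0 t0).1, (h.e0 t0).2, e11 ▸ (h.e1 t1).2, ?_, fun m hm => ?_, fun m hm => ?_⟩
  · rw [show (fun a : P.R01 R => a • (h.e0 t0).1) = h.e01 ∘ fun a : P.R01 R =>
      a • (P.twoCover R).res0 F t0 from funext fun a => by
        rw [Function.comp_apply, map_smul, e01]]
    exact h.e01.bijective.comp b01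
  · obtain ⟨t, ht⟩ := h.e0.surjective ⟨m, hm⟩
    obtain ⟨a, rfl⟩ := b0.2 t
    exact ⟨a, ((congrArg Subtype.val (map_smul h.e0 a t0)).symm.trans
      (congrArg Subtype.val ht)).symm⟩
  · obtain ⟨t, ht⟩ := h.e1.surjective ⟨m, hm⟩
    obtain ⟨a, rfl⟩ := b1.2 t
    exact ⟨a, ((congrArg (a • ·) e11).trans ((congrArg Subtype.val (map_smul h.e1 a t1)).symm.trans
      (congrArg Subtype.val ht))).symm⟩

theorem nonempty_iso_of_isTrivial {B : P.Bundle R} {F : (pullback c (specStr k R)).Modules}
    (h : P.Realization B F) (hB : B.IsTrivial) :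
    Nonempty (F ≅ unitMod (pullback c (specStr k R))) := by
  obtain ⟨e, he0, he1, hbij, hs0, hs1⟩ := hB
  have := h.qc
  refine (P.twoCover R).nonempty_iso_unitMod (h.e0.symm ⟨e, he0⟩) (h.e1.symm ⟨e, he1⟩) ?_ ?_ ?_
  · apply h.e01.injective
    rw [h.comm0, h.comm1, LinearEquiv.apply_symm_apply, LinearEquiv.apply_symm_apply]
  · have : Function.Bijective fun a : P.R0 R => a • (⟨e, he0⟩ : B.L0) :=
      ⟨fun a b hab => P.toChartData.r0_injective R (hbij.1 (by
          simp only [B.smul0]; exact congrArg Subtype.val hab)),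
        fun m => by
          obtain ⟨a, ha⟩ := hs0 m.1 m.2
          exact ⟨a, Subtype.ext ha.symm⟩⟩
    convert! h.e0.symm.bijective.comp this using 1
    funext a
    exact (map_smul h.e0.symm a _).symm
  · have : Function.Bijective fun a : P.R1 R => a • (⟨e, he1⟩ : B.L1) :=
      ⟨fun a b hab => P.r1_injective R (hbij.1 (by
          simp only [B.smul1]; exact congrArg Subtype.val hab)),
        fun m => by
          obtain ⟨a, ha⟩ := hs1 m.1 m.2
          exact ⟨a, Subtype.ext ha.symm⟩⟩
    convert! h.e1.symm.bijective.comp this using 1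
    funext a
    exact (map_smul h.e1.symm a _).symm

theorem isTrivial_iff (B : P.toChartData.Bundle R) :
    B.IsTrivial ↔ Nonempty (P.toModules B ≅
      SheafOfModules.unit (pullback c (specStr k R)).ringCatSheaf) :=
  ⟨P.nonempty_iso_of_isTrivial (P.realization B),
    fun ⟨i⟩ => P.isTrivial_of_iso (P.realization B) i⟩

end FermatLib.AV.CurveCharts
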